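import Fermat.Agent.S27.CaseC
import Fermat.Agent.S27.H.Main

/-! # S27 / Part H: from `ℂ` to an arbitrary algebraically closed field of characteristic zero -/

set_option autoImplicit false

noncomputable section

namespace Fermat.Agent.S27

open AlgebraicCurve Fermat.Agent.S24.FF

theorem card_torsion_general (K F : Type*) [Field K] [Field F] [Algebra K F] [IsAlgClosed K]
    [CharZero K] [IsFF1 K F] [NonConst K F] (n : ℕ) (hn : 0 < n) :
    Nat.card (Pic0.torsion K F n) = n ^ (2 * genusFF K F) :=
  H.card_torsion_of_caseC
    (fun F' _ _ _ hF' m hm => by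
      haveI : NonConst ℂ F' := ⟨hF'⟩
      exact card_torsion_complex F' m hm)
    K F NonConst.out n hn

end Fermat.Agent.S27
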