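import Fermat.Agent.S27.Defs

/-! # S27 / A8: API for divisors, `pt`, `LinEq`, `cls` -/

set_option autoImplicit false

noncomputable section

namespace Fermat.Agent.S27

open AlgebraicCurve Fermat.Agent.S24.FF

variable {K F : Type*} [Field K] [Field F] [Algebra K F] [IsAlgClosed K] [CharZero K] [IsFF1 K F]

theorem degree_pt (v : Place K F) : Divisor.degree (pt v) = 1 := by
  rw [pt, Divisor.degree_single, deg_eq_one]
  norm_num

theorem degree_eq_sum (D : Divisor K F) : Divisor.degree D = D.sum fun _ n => n := by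
  induction D using Finsupp.induction_linear with
  | zero => simp
  | add D E hD hE =>
    rw [map_add, hD, hE, Finsupp.sum_add_index' (fun _ => rfl) (fun _ _ _ => rfl)]
  | single v n =>
    rw [Divisor.degree_single, deg_eq_one, Finsupp.sum_single_index rfl]
    norm_num

/-- the divisor of a function -/
theorem exists_isDivOf (f : F) (hf : f ≠ 0) : ∃ D : Divisor K F, IsDivOf D f := by
  refine ⟨Finsupp.ofSupportFinite (fun v : Place K F => v.ord f) ?_, hf, fun v => rfl⟩
  exact finite_ord_ne_zero (K := K) f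

theorem IsDivOf.degree {D : Divisor K F} {f : F} (h : IsDivOf D f) : Divisor.degree D = 0 := by
  rw [degree_eq_sum, Finsupp.sum]
  have h1 : ∑ v ∈ D.support, D v = ∑ v ∈ D.support, v.ord f :=
    Finset.sum_congr rfl fun v _ => h.2 v
  rw [h1]
  refine sum_ord_eq_zero f _ fun v hv => ?_
  rw [Finsupp.mem_support_iff, h.2 v]
  exact hv

theorem degree_eq_zero_of_mem_principal {D : Divisor K F}
    (h : D ∈ Divisor.principal (K := K) (F := F)) : Divisor.degree D = 0 := by
  obtain ⟨f, hf, hD⟩ := h
  exact IsDivOf.degree (f := f) ⟨hf, hD⟩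

omit [IsAlgClosed K] [CharZero K] [IsFF1 K F] in
theorem mem_principal_iff {D : Divisor K F} :
    D ∈ Divisor.principal (K := K) (F := F) ↔ ∃ f : F, IsDivOf D f :=
  Iff.rfl

omit [IsAlgClosed K] [CharZero K] [IsFF1 K F] in
theorem LinEq.refl (D : Divisor K F) : LinEq D D := by
  rw [LinEq, sub_self]
  exact AddSubgroup.zero_mem _

omit [IsAlgClosed K] [CharZero K] [IsFF1 K F] in
theorem LinEq.symm {D E : Divisor K F} (h : LinEq D E) : LinEq E D := by
  rw [LinEq, ← neg_sub]
  exact AddSubgroup.neg_mem _ h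

omit [IsAlgClosed K] [CharZero K] [IsFF1 K F] in
theorem LinEq.trans {D E G : Divisor K F} (h : LinEq D E) (h' : LinEq E G) : LinEq D G := by
  rw [LinEq, ← sub_add_sub_cancel D E G]
  exact AddSubgroup.add_mem _ h h'

omit [IsAlgClosed K] [CharZero K] [IsFF1 K F] in
theorem LinEq.add {D E D' E' : Divisor K F} (h : LinEq D E) (h' : LinEq D' E') :
    LinEq (D + D') (E + E') := by
  rw [LinEq, add_sub_add_comm]
  exact AddSubgroup.add_mem _ h h'

omit [IsAlgClosed K] [CharZero K] [IsFF1 K F] in
theorem linEq_add_right_iff {D E G : Divisor K F} : LinEq (D + G) (E + G) ↔ LinEq D E := by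
  rw [LinEq, LinEq, add_sub_add_right_eq_sub]

theorem LinEq.degree_eq {D E : Divisor K F} (h : LinEq D E) :
    Divisor.degree D = Divisor.degree E := by
  have h1 := degree_eq_zero_of_mem_principal h
  rw [map_sub, sub_eq_zero] at h1
  exact h1

omit [IsAlgClosed K] [CharZero K] [IsFF1 K F] in
/-- unfolding `cls` on a divisor of degree zero -/
theorem cls_eq_mk {D : Divisor K F} (hD : Divisor.degree D = 0) :
    cls D = Pic0.mk ⟨D, hD⟩ := by
  rw [cls, dif_pos (show D ∈ Divisor.degZero (K := K) (F := F) from hD)]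

omit [IsAlgClosed K] [CharZero K] [IsFF1 K F] in
theorem cls_zero : cls (0 : Divisor K F) = 0 := by
  rw [cls_eq_mk (map_zero _)]
  rfl

omit [IsAlgClosed K] [CharZero K] [IsFF1 K F] in
theorem cls_add {D E : Divisor K F} (hD : Divisor.degree D = 0) (hE : Divisor.degree E = 0) :
    cls (D + E) = cls D + cls E := by
  rw [cls_eq_mk hD, cls_eq_mk hE, cls_eq_mk (by rw [map_add, hD, hE, add_zero])]
  rfl

omit [IsAlgClosed K] [CharZero K] [IsFF1 K F] in
theorem cls_neg {D : Divisor K F} (hD : Divisor.degree D = 0) : cls (-D) = -cls D := by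
  rw [cls_eq_mk hD, cls_eq_mk (by rw [map_neg, hD, neg_zero])]
  rfl

omit [IsAlgClosed K] [CharZero K] [IsFF1 K F] in
theorem cls_sub {D E : Divisor K F} (hD : Divisor.degree D = 0) (hE : Divisor.degree E = 0) :
    cls (D - E) = cls D - cls E := by
  rw [sub_eq_add_neg, cls_add hD (by rw [map_neg, hE, neg_zero]), cls_neg hE, sub_eq_add_neg]

omit [IsAlgClosed K] [CharZero K] [IsFF1 K F] in
theorem cls_sum {ι : Type*} (s : Finset ι) (D : ι → Divisor K F)
    (hD : ∀ i ∈ s, Divisor.degree (D i) = 0) : cls (∑ i ∈ s, D i) = ∑ i ∈ s, cls (D i) := by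
  classical
  induction s using Finset.induction_on with
  | empty => simp [cls_zero]
  | insert a s ha ih =>
    have hs : ∀ i ∈ s, Divisor.degree (D i) = 0 := fun i hi => hD i (Finset.mem_insert_of_mem hi)
    rw [Finset.sum_insert ha, Finset.sum_insert ha,
      cls_add (hD a (Finset.mem_insert_self a s))
        (by rw [map_sum]; exact Finset.sum_eq_zero hs), ih hs]

omit [IsAlgClosed K] [CharZero K] [IsFF1 K F] in
theorem cls_eq_zero_iff {D : Divisor K F} (hD : Divisor.degree D = 0) :
    cls D = 0 ↔ D ∈ Divisor.principal (K := K) (F := F) := by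
  rw [cls_eq_mk hD, Pic0.mk, QuotientAddGroup.eq_zero_iff, AddSubgroup.mem_addSubgroupOf]

omit [IsAlgClosed K] [CharZero K] [IsFF1 K F] in
theorem cls_eq_cls_iff {D E : Divisor K F} (hD : Divisor.degree D = 0)
    (hE : Divisor.degree E = 0) : cls D = cls E ↔ LinEq D E := by
  rw [← sub_eq_zero, ← cls_sub hD hE, cls_eq_zero_iff (by rw [map_sub, hD, hE, sub_zero]), LinEq]

omit [IsAlgClosed K] [CharZero K] [IsFF1 K F] in
theorem cls_surjective (x : Pic0 K F) : ∃ D : Divisor K F, Divisor.degree D = 0 ∧ cls D = x := by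
  obtain ⟨⟨D, hD⟩, rfl⟩ := Pic0.mk_surjective x
  exact ⟨D, hD, cls_eq_mk hD⟩

/-- `cls (D - E) = 0` iff `D ~ E` (degrees equal). -/
theorem cls_sub_eq_zero_iff {D E : Divisor K F} (h : Divisor.degree D = Divisor.degree E) :
    cls (D - E) = 0 ↔ LinEq D E := by
  rw [cls_eq_zero_iff (by rw [map_sub, h, sub_self]), LinEq]

theorem degree_pt_sub_pt (a b : Place K F) : Divisor.degree (pt a - pt b) = 0 := by
  rw [map_sub, degree_pt, degree_pt, sub_self]

theorem cls_pt_sub_pt_add (a b c : Place K F) :
    cls (pt a - pt b) + cls (pt b - pt c) = cls (pt a - pt c) := by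
  rw [← cls_add (degree_pt_sub_pt a b) (degree_pt_sub_pt b c), sub_add_sub_cancel]

theorem cls_pt_sub_pt_self (a : Place K F) : cls (pt a - pt a) = 0 := by
  rw [sub_self, cls_zero]

/-- `Pic0` is generated by the classes `[v] - [v₀]`. -/
theorem pic0_eq_top_of_forall_mem (H : AddSubgroup (Pic0 K F)) (v₀ : Place K F)
    (h : ∀ v : Place K F, cls (pt v - pt v₀) ∈ H) : H = ⊤ := by
  rw [eq_top_iff]
  intro x _
  obtain ⟨D, hD, rfl⟩ := cls_surjective x
  -- `D = ∑ D v • (pt v - pt v₀)` since `deg D = 0`
  have key : ∀ E : Divisor K F, cls (E - Divisor.degree E • pt v₀) ∈ H := by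
    intro E
    induction E using Finsupp.induction_linear with
    | zero => simp [cls_zero, H.zero_mem]
    | add E E' hE hE' =>
      have h0 : ∀ G : Divisor K F, Divisor.degree (G - Divisor.degree G • pt v₀) = 0 := by
        intro G
        rw [map_sub, map_zsmul, degree_pt, smul_eq_mul, mul_one, sub_self]
      have : E + E' - Divisor.degree (E + E') • pt v₀ =
          (E - Divisor.degree E • pt v₀) + (E' - Divisor.degree E' • pt v₀) := by
        rw [map_add, add_smul]; abel
      rw [this, cls_add (h0 E) (h0 E')]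
      exact H.add_mem hE hE'
    | single v n =>
      have h1 : Divisor.degree (Finsupp.single v n : Divisor K F) = n := by
        rw [Divisor.degree_single, deg_eq_one]; norm_num
      have h2 : (Finsupp.single v n : Divisor K F) = n • pt v := by
        rw [pt, Finsupp.smul_single, smul_eq_mul, mul_one]
      have h3 : ∀ m : ℤ, cls (m • (pt v - pt v₀)) = m • cls (pt v - pt v₀) := by
        intro m
        have hnat : ∀ k : ℕ, cls (k • (pt v - pt v₀)) = k • cls (pt v - pt v₀) := by
          intro k
          induction k with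
          | zero => simp [cls_zero]
          | succ k ih =>
            rw [succ_nsmul, succ_nsmul, cls_add (by rw [map_nsmul, degree_pt_sub_pt, smul_zero])
              (degree_pt_sub_pt v v₀), ih]
        obtain ⟨k, rfl | rfl⟩ := m.eq_nat_or_neg
        · rw [natCast_zsmul, natCast_zsmul, hnat]
        · rw [neg_smul, neg_smul, natCast_zsmul, natCast_zsmul,
            cls_neg (by rw [map_nsmul, degree_pt_sub_pt, smul_zero]), hnat]
      rw [h1, h2, ← smul_sub, h3]
      exact H.zsmul_mem (h v) n
  have := key D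
  rwa [hD, zero_smul, sub_zero] at this

/-- two sums of points which are equal as divisors: each point of one occurs in the other -/
theorem exists_eq_of_sum_pt_eq {n : ℕ} (v w : Fin n → Place K F)
    (h : ∑ i, pt (v i) = ∑ i, pt (w i)) (i : Fin n) : ∃ j, v i = w j := by
  classical
  by_contra hcon
  simp only [not_exists] at hcon
  have h1 := DFunLike.congr_fun h (v i)
  rw [Finsupp.finset_sum_apply, Finsupp.finset_sum_apply] at h1
  have h2 : ∑ j, (pt (w j) : Divisor K F) (v i) = 0 :=
    Finset.sum_eq_zero fun j _ => by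
      rw [pt, Finsupp.single_apply, if_neg (fun hj => hcon j hj.symm)]
  have h3 : (1 : ℤ) ≤ ∑ j, (pt (v j) : Divisor K F) (v i) := by
    have h4 : (pt (v i) : Divisor K F) (v i) ≤ ∑ j, (pt (v j) : Divisor K F) (v i) :=
      Finset.single_le_sum (f := fun j => (pt (v j) : Divisor K F) (v i))
        (fun j _ => by
          show (0 : ℤ) ≤ (pt (v j) : Divisor K F) (v i)
          rw [pt, Finsupp.single_apply]; split_ifs <;> norm_num)
        (Finset.mem_univ i)
    rw [pt, Finsupp.single_eq_same] at h4
    exact h4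
  rw [h1, h2] at h3
  norm_num at h3

end Fermat.Agent.S27
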