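import Fermat.Agent.S27.Defs
import Fermat.Agent.S27.Riemann

/-! # S27 / B: Riemann's theorem in terms of the Prelude repartitions (interface)

Proofs: `Fermat/Agent/S27/Riemann.lean` (helper94). -/

set_option autoImplicit false

noncomputable section

namespace Fermat.Agent.S27

open AlgebraicCurve Fermat.Agent.S24.FF

variable {K F : Type*} [Field K] [Field F] [Algebra K F] [IsAlgClosed K] [CharZero K] [IsFF1 K F]
  [NonConst K F]

theorem finite_riemannRochSpace (D : Divisor K F) : Module.Finite K (riemannRochSpace D) :=
  Riemann.finite_L NonConst.out D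

theorem finite_H1 (D : Divisor K F) : Module.Finite K (H1 D) :=
  Riemann.finite_H1 NonConst.out D

/-- **Riemann-Roch, Euler characteristic form.** -/
theorem finrank_riemannRochSpace_sub_finrank_H1 (D : Divisor K F) :
    (Module.finrank K (riemannRochSpace D) : ℤ) - Module.finrank K (H1 D)
      = Divisor.degree D + 1 - genusFF K F :=
  Riemann.riemann_formula NonConst.out D

/-- `H1 D = 0` for divisors of large degree. -/
theorem exists_forall_subsingleton_H1 :
    ∃ c : ℤ, ∀ D : Divisor K F, c ≤ Divisor.degree D → Subsingleton (H1 D) :=
  Riemann.exists_H1_subsingleton NonConst.out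

omit [NonConst K F] in
/-- regular functions are constant -/
theorem eq_algebraMap_of_forall_ord_nonneg (f : F) (h : ∀ v : Place K F, 0 ≤ v.ord f) :
    ∃ c : K, f = algebraMap K F c := by
  rcases exists_const_or_transcendental (K := K) f with hc | hft
  · exact hc
  · obtain ⟨v, hv⟩ := Riemann.exists_pole hft
    have := h v
    omega

end Fermat.Agent.S27
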