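import Fermat.Agent.S27.Defs

/-! # S27 / A7: fibres of a function `x : places -> P^1`, basic facts -/

set_option autoImplicit false

noncomputable section

namespace Fermat.Agent.S27

open AlgebraicCurve Fermat.Agent.S24.FF IntermediateField

variable {K F : Type*} [Field K] [Field F] [Algebra K F] [IsAlgClosed K] [CharZero K] [IsFF1 K F]

/-- the fibre of `x` over `a`, counted with multiplicity, has `[F : K(x)]` elements -/
theorem exists_fibre (x : F) (hx : Transcendental K x) (a : K) :
    ∃ s : Finset (Place K F), (∀ v, v ∈ s ↔ 0 < v.ord (x - algebraMap K F a)) ∧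
      ∑ v ∈ s, v.ord (x - algebraMap K F a) = (Module.finrank K⟮x⟯ F : ℤ) := by
  obtain ⟨s, hs, hsum⟩ := exists_finset_ord_pos (x - algebraMap K F a)
    (transcendental_sub_const hx a)
  rw [adjoin_simple_sub_const] at hsum
  exact ⟨s, hs, hsum⟩

/-- every value is taken -/
theorem exists_place_over (x : F) (hx : Transcendental K x) (a : K) :
    ∃ v : Place K F, 0 < v.ord (x - algebraMap K F a) := by
  obtain ⟨s, hs, hsum⟩ := exists_fibre x hx a
  haveI : FiniteDimensional K⟮x⟯ F := IsFF1.finite x hx
  have hpos : 0 < Module.finrank K⟮x⟯ F := Module.finrank_pos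
  have hne : s.Nonempty := by
    rw [Finset.nonempty_iff_ne_empty]
    rintro rfl
    rw [Finset.sum_empty] at hsum
    have : (0 : ℤ) < (Module.finrank K⟮x⟯ F : ℤ) := by exact_mod_cast hpos
    omega
  obtain ⟨v, hv⟩ := hne
  exact ⟨v, (hs v).mp hv⟩

/-- places exist, infinitely many -/
theorem infinite_place [NonConst K F] : Infinite (Place K F) := by
  obtain ⟨x, hx⟩ := NonConst.out (K := K) (F := F)
  haveI : Infinite K := IsAlgClosed.instInfinite
  choose pl hpl using exists_place_over x hx
  refine Infinite.of_injective pl ?_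
  intro a b hab
  have h1 := hpl a
  have h2 := hpl b
  rw [← hab] at h2
  exact const_unique (pl a) h1 h2

/-- a function with infinitely many zeros is zero -/
theorem eq_zero_of_infinite_zeros (f : F) (h : {v : Place K F | 0 < v.ord f}.Infinite) : f = 0 := by
  exfalso
  apply h
  refine (finite_ord_ne_zero (K := K) f).subset ?_
  intro v hv
  have : 0 < v.ord f := hv
  show v.ord f ≠ 0
  omega

/-- If `t` distinct places lie over `a` and `t = [F : K(x)]`, they form the whole fibre and `x - a`
is a uniformizer at each. -/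
theorem fibre_eq_of_card (x : F) (hx : Transcendental K x) (a : K) (s : Finset (Place K F))
    (hs : ∀ v ∈ s, 0 < v.ord (x - algebraMap K F a)) (hcard : s.card = Module.finrank K⟮x⟯ F) :
    (∀ v : Place K F, 0 < v.ord (x - algebraMap K F a) → v ∈ s) ∧
      ∀ v ∈ s, v.ord (x - algebraMap K F a) = 1 := by
  classical
  obtain ⟨t, ht, hsum⟩ := exists_fibre x hx a
  have hst : s ⊆ t := fun v hv => (ht v).mpr (hs v hv)
  have hind : ∑ v ∈ t, (if v ∈ s then (1 : ℤ) else 0) = s.card := by
    rw [Finset.sum_ite_mem, Finset.inter_eq_right.mpr hst]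
    simp
  have hzero : ∑ v ∈ t, (v.ord (x - algebraMap K F a) - (if v ∈ s then (1 : ℤ) else 0)) = 0 := by
    rw [Finset.sum_sub_distrib, hsum, hind, hcard, sub_self]
  have hnonneg : ∀ v ∈ t, 0 ≤ v.ord (x - algebraMap K F a) - (if v ∈ s then (1 : ℤ) else 0) := by
    intro v hv
    have := (ht v).mp hv
    split_ifs <;> omega
  have hall := (Finset.sum_eq_zero_iff_of_nonneg hnonneg).mp hzero
  constructor
  · intro v hv
    by_contra hvs
    have := hall v ((ht v).mpr hv)
    rw [if_neg hvs] at this
    omega
  · intro v hv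
    have := hall v (hst hv)
    rw [if_pos hv] at this
    omega

/-- If all places over `a` are unramified, there are exactly `[F : K(x)]` of them. -/
theorem card_fibre_of_unramified (x : F) (hx : Transcendental K x) (a : K) (s : Finset (Place K F))
    (hs : ∀ v, v ∈ s ↔ 0 < v.ord (x - algebraMap K F a))
    (hunr : ∀ v ∈ s, v.ord (x - algebraMap K F a) = 1) :
    s.card = Module.finrank K⟮x⟯ F := by
  obtain ⟨t, ht, hsum⟩ := exists_fibre x hx a
  have hst : t = s := by
    ext v
    rw [ht, hs]
  rw [hst, Finset.sum_congr rfl hunr] at hsum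
  simp only [Finset.sum_const, nsmul_eq_mul, mul_one] at hsum
  exact_mod_cast hsum

end Fermat.Agent.S27
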