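import Fermat.Agent.S27.Defs

/-! # S27 / A2: weak approximation for places of a function field

The general versions (`weak_approx_gen`, `exists_ord_eq_gen`, `exists_isVal_gen`) need no
hypothesis at all on the constant field: they are pure valuation theory
(distinct discrete valuation rings of a field are independent).
-/

set_option autoImplicit false
set_option linter.unusedSectionVars false

noncomputable section

namespace Fermat.Agent.S27

open AlgebraicCurve Fermat.Agent.S24.FF

section General

variable {K F : Type*} [Field K] [Field F] [Algebra K F]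

/-- `x` vanishes to order at least `N` at `v` (with `0` allowed). -/
def Small (v : Place K F) (N : ℤ) (x : F) : Prop := x = 0 ∨ N ≤ v.ord x

theorem Small.zero (v : Place K F) (N : ℤ) : Small v N (0 : F) := Or.inl rfl

theorem Small.add {v : Place K F} {N : ℤ} {x y : F} (hx : Small v N x) (hy : Small v N y) :
    Small v N (x + y) := by
  rcases hx with rfl | hx
  · simpa using hy
  rcases hy with rfl | hy
  · rw [add_zero]; exact Or.inr hx
  by_cases h : x + y = 0
  · exact Or.inl h
  · exact Or.inr (le_trans (le_min hx hy) (min_ord_le_ord_add v h))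

theorem Small.sum {ι : Type*} {v : Place K F} {N : ℤ} (s : Finset ι) (x : ι → F)
    (h : ∀ i ∈ s, Small v N (x i)) : Small v N (∑ i ∈ s, x i) := by
  classical
  induction s using Finset.induction_on with
  | empty => simpa using Small.zero v N
  | insert i s hi ih =>
    rw [Finset.sum_insert hi]
    exact (h i (Finset.mem_insert_self i s)).add
      (ih fun j hj => h j (Finset.mem_insert_of_mem hj))

theorem Small.mul_left {v : Place K F} {M N : ℤ} {x : F} (a : F) (hx : Small v M x)
    (ha : N ≤ v.ord a + M) : Small v N (a * x) := by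
  rcases hx with rfl | hx
  · simpa using Small.zero v N
  by_cases hx0 : x = 0
  · subst hx0; simpa using Small.zero v N
  by_cases ha0 : a = 0
  · subst ha0; simpa using Small.zero v N
  · right
    rw [v.ord_mul ha0 hx0]
    omega

/-- two distinct places are separated by a function -/
theorem exists_ord_pos_neg {v w : Place K F} (h : v ≠ w) :
    ∃ u : F, 0 < v.ord u ∧ w.ord u < 0 := by
  have h1 : ¬ v.toValuationSubring ≤ w.toValuationSubring := fun hle =>
    h (Place.ext (ValuationSubring.eq_of_le_of_ne_top _ hle w.ne_top'))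
  have h2 : ¬ w.toValuationSubring ≤ v.toValuationSubring := fun hle =>
    h (Place.ext (ValuationSubring.eq_of_le_of_ne_top _ hle v.ne_top')).symm
  obtain ⟨y, hyv, hyw⟩ := SetLike.not_le_iff_exists.mp h1
  obtain ⟨z, hzw, hzv⟩ := SetLike.not_le_iff_exists.mp h2
  rw [mem_iff_ord_nonneg] at hyv hyw hzw hzv
  have hy0 : y ≠ 0 := ne_zero_of_ord_ne_zero w (by omega)
  have hz0 : z ≠ 0 := ne_zero_of_ord_ne_zero v (by omega)
  refine ⟨y * z⁻¹, ?_, ?_⟩
  · rw [v.ord_mul hy0 (inv_ne_zero hz0), v.ord_inv]; omega
  · rw [w.ord_mul hy0 (inv_ne_zero hz0), w.ord_inv]; omega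

/-- a function with a zero at `v` and poles at all places of `s` -/
theorem exists_ord_pos_neg_finset (v : Place K F) (s : Finset (Place K F)) (hv : v ∉ s) :
    ∃ u : F, 0 < v.ord u ∧ ∀ w ∈ s, w.ord u < 0 := by
  classical
  induction s using Finset.induction_on with
  | empty =>
    obtain ⟨π, hπ⟩ := exists_ord_eq_one v
    exact ⟨π, by omega, by simp⟩
  | insert w₀ s hw₀ ih =>
    have hvw₀ : v ≠ w₀ := fun h => hv (h ▸ Finset.mem_insert_self _ _)
    obtain ⟨u, huv, hus⟩ := ih fun h => hv (Finset.mem_insert_of_mem h)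
    by_cases hc : w₀.ord u < 0
    · refine ⟨u, huv, fun w hw => ?_⟩
      rcases Finset.mem_insert.mp hw with rfl | hw
      · exact hc
      · exact hus w hw
    obtain ⟨y, hyv, hyw⟩ := exists_ord_pos_neg hvw₀
    have hy0 : y ≠ 0 := ne_zero_of_ord_ne_zero v (by omega)
    have hu0 : u ≠ 0 := ne_zero_of_ord_ne_zero v (by omega)
    set r : ℕ := 1 + ∑ w ∈ s, (w.ord u).natAbs with hr
    have hr1 : 1 ≤ r := by omega
    have hrw : ∀ w ∈ s, (w.ord u).natAbs < r := by
      intro w hw
      have := Finset.single_le_sum (f := fun w : Place K F => (w.ord u).natAbs)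
        (fun _ _ => Nat.zero_le _) hw
      omega
    have hyr0 : y ^ r ≠ 0 := pow_ne_zero _ hy0
    have hw₀' : w₀.ord (y ^ r + u) = w₀.ord (y ^ r) := by
      apply ord_add_eq_of_lt w₀ hyr0
      rw [ord_pow]
      have : (r : ℤ) * w₀.ord y < 0 := mul_neg_of_pos_of_neg (by exact_mod_cast hr1) hyw
      omega
    have hw₀neg : w₀.ord (y ^ r + u) < 0 := by
      rw [hw₀', ord_pow]
      exact mul_neg_of_pos_of_neg (by exact_mod_cast hr1) hyw
    have hne : y ^ r + u ≠ 0 := ne_zero_of_ord_ne_zero w₀ (by omega)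
    refine ⟨y ^ r + u, ?_, fun w hw => ?_⟩
    · have h1 := min_ord_le_ord_add v hne
      have h2 : 0 < v.ord (y ^ r) := by
        rw [ord_pow]
        exact mul_pos (by exact_mod_cast hr1) hyv
      have : 0 < min (v.ord (y ^ r)) (v.ord u) := lt_min h2 huv
      omega
    · rcases Finset.mem_insert.mp hw with rfl | hw
      · exact hw₀neg
      · have hneg := hus w hw
        have hlt := hrw w hw
        rcases lt_trichotomy (w.ord (y ^ r)) (w.ord u) with h | h | h
        · rw [ord_add_eq_of_lt w hyr0 h]; omega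
        · exfalso
          rw [ord_pow] at h
          have h3 : (w.ord u).natAbs = r * (w.ord y).natAbs := by
            rw [← h, Int.natAbs_mul, Int.natAbs_natCast]
          have h4 : (w.ord y).natAbs ≠ 0 := by
            intro h5
            rw [h5, mul_zero] at h3
            omega
          have h6 : r ≤ r * (w.ord y).natAbs := Nat.le_mul_of_pos_right r (Nat.pos_of_ne_zero h4)
          omega
        · rw [add_comm, ord_add_eq_of_lt w hu0 h]; exact hneg

/-- an approximate idempotent: `≡ 1` at `v`, `≡ 0` at the places of `s` -/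
theorem exists_small_sub_one (v : Place K F) (s : Finset (Place K F)) (hv : v ∉ s) (M : ℤ) :
    ∃ z : F, Small v M (z - 1) ∧ ∀ w ∈ s, Small w M z := by
  obtain ⟨u, huv, hus⟩ := exists_ord_pos_neg_finset v s hv
  have hu0 : u ≠ 0 := ne_zero_of_ord_ne_zero v (by omega)
  set r : ℕ := M.toNat + 1 with hr
  have hrM : M ≤ (r : ℤ) := by
    have := Int.self_le_toNat M
    push_cast [hr]
    omega
  have hr1 : (1 : ℤ) ≤ (r : ℤ) := by push_cast [hr]; omega
  have hur0 : u ^ r ≠ 0 := pow_ne_zero _ hu0
  have hvr : (r : ℤ) ≤ v.ord (u ^ r) := by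
    rw [ord_pow]; nlinarith
  have hne : 1 + u ^ r ≠ 0 := by
    intro h0
    have h1 : u ^ r = -1 := by
      rw [eq_neg_iff_add_eq_zero, add_comm]; exact h0
    rw [h1, ord_neg, v.ord_one] at hvr
    omega
  refine ⟨(1 + u ^ r)⁻¹, Or.inr ?_, fun w hw => Or.inr ?_⟩
  · have h1 : (1 + u ^ r)⁻¹ - 1 = -(u ^ r) * (1 + u ^ r)⁻¹ := by
      field_simp
      ring
    have h2 : v.ord (1 + u ^ r) = 0 := by
      rw [ord_add_eq_of_lt v one_ne_zero (by rw [v.ord_one]; omega), v.ord_one]
    rw [h1, v.ord_mul (neg_ne_zero.mpr hur0) (inv_ne_zero hne), ord_neg, v.ord_inv, h2]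
    omega
  · have hw' := hus w hw
    have h1 : w.ord (u ^ r) ≤ -(r : ℤ) := by
      rw [ord_pow]; nlinarith
    have h2 : w.ord (1 + u ^ r) = w.ord (u ^ r) := by
      rw [add_comm]
      exact ord_add_eq_of_lt w hur0 (by rw [w.ord_one]; omega)
    rw [w.ord_inv, h2]
    omega

/-- **Weak approximation**, no hypothesis on the constant field. -/
theorem weak_approx_gen (s : Finset (Place K F)) (a : Place K F → F) (N : ℤ) :
    ∃ f : F, ∀ v ∈ s, f = a v ∨ N ≤ v.ord (f - a v) := by
  classical
  set C : ℤ := ∑ v ∈ s, ∑ w ∈ s, |w.ord (a v)| with hC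
  have hCle : ∀ v ∈ s, ∀ w ∈ s, -C ≤ w.ord (a v) := by
    intro v hv w hw
    have h1 : |w.ord (a v)| ≤ ∑ w ∈ s, |w.ord (a v)| :=
      Finset.single_le_sum (f := fun w : Place K F => |w.ord (a v)|)
        (fun _ _ => abs_nonneg _) hw
    have h2 : ∑ w ∈ s, |w.ord (a v)| ≤ C :=
      Finset.single_le_sum (f := fun v : Place K F => ∑ w ∈ s, |w.ord (a v)|)
        (fun _ _ => Finset.sum_nonneg fun _ _ => abs_nonneg _) hv
    have h3 := neg_abs_le (w.ord (a v))
    omega
  choose z hz1 hz0 using fun v : Place K F =>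
    exists_small_sub_one v (s.erase v) (Finset.notMem_erase v s) (N + C)
  refine ⟨∑ v ∈ s, a v * z v, fun v hv => ?_⟩
  have key : Small v N (∑ w ∈ s, a w * z w - a v) := by
    rw [← Finset.add_sum_erase s _ hv]
    have h1 : a v * z v + ∑ w ∈ s.erase v, a w * z w - a v
        = a v * (z v - 1) + ∑ w ∈ s.erase v, a w * z w := by ring
    rw [h1]
    refine Small.add ((hz1 v).mul_left _ ?_) (Small.sum _ _ fun w hw => ?_)
    · have := hCle v hv v hv
      omega
    · have hws : w ∈ s := Finset.mem_of_mem_erase hw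
      have hvw : v ∈ s.erase w := Finset.mem_erase.mpr ⟨(Finset.ne_of_mem_erase hw).symm, hv⟩
      refine (hz0 w v hvw).mul_left _ ?_
      have := hCle w hws v hv
      omega
  rcases key with h | h
  · exact Or.inl (sub_eq_zero.mp h)
  · exact Or.inr h

/-- prescribed orders at finitely many places, no hypothesis on the constant field -/
theorem exists_ord_eq_gen (s : Finset (Place K F)) (n : Place K F → ℤ) :
    ∃ f : F, f ≠ 0 ∧ ∀ v ∈ s, v.ord f = n v := by
  classical
  choose π hπ using fun v : Place K F => exists_ord_eq_one v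
  have hπ0 : ∀ v, π v ≠ 0 := fun v => ne_zero_of_ord_ne_zero v (by rw [hπ v]; exact one_ne_zero)
  have hord : ∀ v : Place K F, v.ord (π v ^ n v) = n v := fun v => by
    rw [v.ord_zpow, hπ v, mul_one]
  set N : ℤ := 1 + ∑ v ∈ s, |n v| with hN
  have hNlt : ∀ v ∈ s, n v < N := by
    intro v hv
    have h1 : |n v| ≤ ∑ v ∈ s, |n v| :=
      Finset.single_le_sum (f := fun v : Place K F => |n v|) (fun _ _ => abs_nonneg _) hv
    have h2 := le_abs_self (n v)
    omega
  obtain ⟨f, hf⟩ := weak_approx_gen s (fun v => π v ^ n v) N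
  have hmain : ∀ v ∈ s, f ≠ 0 ∧ v.ord f = n v := by
    intro v hv
    have ht0 : π v ^ n v ≠ 0 := zpow_ne_zero _ (hπ0 v)
    rcases hf v hv with h | h
    · rw [h]; exact ⟨ht0, hord v⟩
    · have hlt := hNlt v hv
      have h1 : v.ord (π v ^ n v + (f - π v ^ n v)) = v.ord (π v ^ n v) :=
        ord_add_eq_of_lt v ht0 (by rw [hord v]; omega)
      rw [add_sub_cancel, hord v] at h1
      refine ⟨?_, h1⟩
      rintro rfl
      rw [zero_sub, ord_neg, hord v] at h
      omega
  rcases s.eq_empty_or_nonempty with rfl | ⟨v₀, hv₀⟩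
  · exact ⟨1, one_ne_zero, by simp⟩
  · exact ⟨f, (hmain v₀ hv₀).1, fun v hv => (hmain v hv).2⟩

/-- a function regular at finitely many places with prescribed values there,
no hypothesis on the constant field -/
theorem exists_isVal_gen (s : Finset (Place K F)) (c : Place K F → K) :
    ∃ f : F, ∀ v ∈ s, IsVal v f (c v) := by
  obtain ⟨f, hf⟩ := weak_approx_gen s (fun v => algebraMap K F (c v)) 1
  refine ⟨f, fun v hv => ?_⟩
  rcases hf v hv with h | h
  · exact Or.inl h
  · exact Or.inr (by omega)

end General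

variable {K F : Type*} [Field K] [Field F] [Algebra K F] [IsAlgClosed K] [CharZero K] [IsFF1 K F]

/-- **Weak approximation.** -/
theorem weak_approx (s : Finset (Place K F)) (a : Place K F → F) (N : ℤ) :
    ∃ f : F, ∀ v ∈ s, f = a v ∨ N ≤ v.ord (f - a v) :=
  weak_approx_gen s a N

/-- prescribed orders at finitely many places -/
theorem exists_ord_eq (s : Finset (Place K F)) (n : Place K F → ℤ) :
    ∃ f : F, f ≠ 0 ∧ ∀ v ∈ s, v.ord f = n v :=
  exists_ord_eq_gen s n

/-- a function regular at finitely many places with prescribed values there -/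
theorem exists_isVal (s : Finset (Place K F)) (c : Place K F → K) :
    ∃ f : F, ∀ v ∈ s, IsVal v f (c v) :=
  exists_isVal_gen s c

end Fermat.Agent.S27
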