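import Fermat.Agent.S27.FibRam
import Fermat.Agent.S27.Approx

/-! # S27 / A5: every place has a uniformizer all of whose zeros are simple

Proof: take `t₀` with `ord_v t₀ = 1`; by `exists_ord_eq` take `s` with `ord_v s = 2` and
`ord_w s = 0` at the other zeros and poles `w` of `t₀`.  Put `t = t₀ + c s` for a generic
constant `c ≠ 0`.  `ord_v t = 1`.  A zero `w ≠ v` of `t` with `ord_w s = 0` is a zero of
`t₀/s + c` of the same order, hence simple unless `-c` is one of the finitely many ramified values
of `t₀/s` (`t₀/s` is not constant since it has a pole at `v`).  If `ord_w s ≠ 0`, `w ≠ v`, then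
`ord_w t₀ = 0`, so `ord_w t = min 0 (ord_w s) ≤ 0`. -/

set_option autoImplicit false

noncomputable section

namespace Fermat.Agent.S27

open AlgebraicCurve Fermat.Agent.S24.FF

variable {K F : Type*} [Field K] [Field F] [Algebra K F] [IsAlgClosed K] [CharZero K] [IsFF1 K F]

/-- A5. Every place has a uniformizer all of whose zeros are simple. -/
theorem exists_uniformizer_simple_zeros (v : Place K F) :
    ∃ t : F, v.ord t = 1 ∧ ∀ w : Place K F, 0 < w.ord t → w.ord t = 1 := by
  classical
  obtain ⟨t₀, ht₀⟩ := exists_ord_eq_one v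
  have ht₀0 : t₀ ≠ 0 := ne_zero_of_ord_ne_zero v (by rw [ht₀]; exact one_ne_zero)
  have hZ := finite_ord_ne_zero (K := K) t₀
  obtain ⟨s, hs0, hs⟩ := exists_ord_eq (K := K) (F := F) (insert v hZ.toFinset)
    (fun w => if w = v then 2 else 0)
  have hsv : v.ord s = 2 := by
    have := hs v (Finset.mem_insert_self _ _)
    simpa using this
  have hsw : ∀ w : Place K F, w ≠ v → w.ord t₀ ≠ 0 → w.ord s = 0 := by
    intro w hwv hw
    have := hs w (Finset.mem_insert_of_mem (hZ.mem_toFinset.mpr hw))
    simpa [hwv] using this
  -- the function `u = t₀ / s` is not constant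
  set u : F := t₀ * s⁻¹ with hu
  have huv : v.ord u = -1 := by
    rw [hu, v.ord_mul ht₀0 (inv_ne_zero hs0), v.ord_inv, ht₀, hsv]; norm_num
  have hutr : Transcendental K u := by
    rcases exists_const_or_transcendental (K := K) u with ⟨c, hc⟩ | h
    · exfalso
      rw [hc, ord_algebraMap] at huv
      norm_num at huv
    · exact h
  have hB := finite_ramified_values (K := K) u hutr
  have hB' : ((fun a : K => -a) '' {a : K | ∃ w : Place K F, 1 < w.ord (u - algebraMap K F a)} ∪
      {0}).Finite := (hB.image _).union (Set.finite_singleton 0)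
  have : Infinite K := IsAlgClosed.instInfinite
  obtain ⟨c, hc⟩ := hB'.exists_notMem
  have hc0 : c ≠ 0 := by
    intro h
    exact hc (Or.inr (by simpa using h))
  have hcB : ∀ w : Place K F, ¬ 1 < w.ord (u + algebraMap K F c) := by
    intro w hw
    refine hc (Or.inl ⟨-c, ⟨w, ?_⟩, by simp⟩)
    simpa using hw
  have hcF : algebraMap K F c ≠ 0 := by
    simpa using hc0
  have hcs0 : algebraMap K F c * s ≠ 0 := mul_ne_zero hcF hs0
  have hcs : ∀ w : Place K F, w.ord (algebraMap K F c * s) = w.ord s := by
    intro w
    rw [w.ord_mul hcF hs0, ord_algebraMap, zero_add]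
  refine ⟨t₀ + algebraMap K F c * s, ?_, ?_⟩
  · rw [ord_add_eq_of_lt v ht₀0 (by rw [hcs, ht₀, hsv]; norm_num), ht₀]
  · intro w hw
    by_cases hwv : w = v
    · subst hwv
      rw [ord_add_eq_of_lt w ht₀0 (by rw [hcs, ht₀, hsv]; norm_num), ht₀]
    · rcases lt_trichotomy (w.ord s) 0 with hneg | hzero | hpos
      · exfalso
        have h0 : w.ord t₀ = 0 := by
          by_contra h
          rw [hsw w hwv h] at hneg
          exact lt_irrefl _ hneg
        rw [add_comm, ord_add_eq_of_lt w hcs0 (by rw [hcs, h0]; exact hneg), hcs] at hw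
        omega
      · have hfac : t₀ + algebraMap K F c * s = s * (u + algebraMap K F c) := by
          rw [hu]; field_simp
        have hne : u + algebraMap K F c ≠ 0 := by
          intro h
          rw [hfac, h, mul_zero, Place.ord_zero] at hw
          exact lt_irrefl _ hw
        rw [hfac, w.ord_mul hs0 hne, hzero, zero_add] at hw ⊢
        have := hcB w
        omega
      · exfalso
        have h0 : w.ord t₀ = 0 := by
          by_contra h
          rw [hsw w hwv h] at hpos
          exact lt_irrefl _ hpos
        rw [ord_add_eq_of_lt w ht₀0 (by rw [hcs, h0]; exact hpos), h0] at hw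
        exact lt_irrefl _ hw

end Fermat.Agent.S27
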