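import Fermat.Agent.S27.ChartAPI
import Fermat.Agent.S27.C.Final

/-! # S27 / C1: every place is the centre of a chart
The main statement `exists_chart_nhd` is proved in `C/Final.lean` (helper262). -/

set_option autoImplicit false

noncomputable section

namespace Fermat.Agent.S27

open AlgebraicCurve Fermat.Agent.S24.FF

variable {F : Type*} [Field F] [Algebra ℂ F] [IsFF1 ℂ F]

theorem exists_chart (v : Place ℂ F) : ∃ χ : Chart F, χ.pl χ.c = v := by
  obtain ⟨χ, h, -⟩ := exists_chart_nhd v
  exact ⟨χ, h⟩

end Fermat.Agent.S27
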