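import Mathlib

/-!
# S27: the abstract lattice lemma

If `E : V →+ G` is a surjective homomorphism from a finite dimensional real normed space,
injective near `0`, and such that a bounded set already surjects onto `G`, then
`G[n]` has exactly `n ^ dim_ℝ V` elements.
-/

namespace Fermat.Agent.S27.Lattice

open Module Submodule

variable {V G : Type*} [NormedAddCommGroup V] [NormedSpace ℝ V] [AddCommGroup G]

/-- The kernel of `E` as a `ℤ`-submodule. -/
def kerZ (E : V →+ G) : Submodule ℤ V := AddSubgroup.toIntSubmodule E.ker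

omit [NormedSpace ℝ V] in
theorem mem_kerZ {E : V →+ G} {x : V} : x ∈ kerZ E ↔ E x = 0 := Iff.rfl

omit [NormedSpace ℝ V] in
theorem discreteTopology_kerZ (E : V →+ G)
    (hdisc : ∃ r : ℝ, 0 < r ∧ ∀ x : V, ‖x‖ < r → E x = 0 → x = 0) :
    DiscreteTopology (kerZ E) := by
  obtain ⟨r, hr, h⟩ := hdisc
  rw [discreteTopology_iff_isOpen_singleton]
  intro a
  rw [Metric.isOpen_iff]
  intro x hx
  refine ⟨r, hr, ?_⟩
  intro y hy
  rw [Set.mem_singleton_iff] at hx ⊢
  subst hx
  have h1 : ‖(y : V) - (x : V)‖ < r := by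
    have := Metric.mem_ball.1 hy
    rwa [Subtype.dist_eq, dist_eq_norm] at this
  have h2 : E ((y : V) - (x : V)) = 0 := by
    rw [map_sub, mem_kerZ.1 y.2, mem_kerZ.1 x.2, sub_zero]
  exact Subtype.ext (sub_eq_zero.1 (h _ h1 h2))

theorem span_kerZ_eq_top [FiniteDimensional ℝ V] (E : V →+ G)
    (hbdd : ∃ R : ℝ, ∀ y : G, ∃ x : V, ‖x‖ ≤ R ∧ E x = y) :
    span ℝ (kerZ E : Set V) = ⊤ := by
  obtain ⟨R, hR⟩ := hbdd
  by_contra hne
  obtain ⟨f, hf0, hf⟩ := Submodule.exists_le_ker_of_lt_top _ (lt_top_iff_ne_top.2 hne)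
  obtain ⟨v, hv⟩ : ∃ v, f v ≠ 0 := by
    by_contra hcon
    push Not at hcon
    exact hf0 (LinearMap.ext hcon)
  set F : V →L[ℝ] ℝ := LinearMap.toContinuousLinearMap f with hF
  have hFf : ∀ x, F x = f x := fun x => rfl
  have hR0 : 0 ≤ R := by
    obtain ⟨x, hx, -⟩ := hR 0
    exact (norm_nonneg x).trans hx
  have key : ∀ t : ℝ, |t| * |f v| ≤ ‖F‖ * R := by
    intro t
    obtain ⟨x, hx, hEx⟩ := hR (E (t • v))
    have hmem : t • v - x ∈ kerZ E := by
      rw [mem_kerZ, map_sub, hEx, sub_self]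
    have h0 : f (t • v - x) = 0 := hf (subset_span hmem)
    have h1 : f x = t * f v := by
      rw [map_sub, map_smul, smul_eq_mul, sub_eq_zero] at h0
      exact h0.symm
    calc |t| * |f v| = |f x| := by rw [h1, abs_mul]
      _ = ‖F x‖ := by rw [hFf, Real.norm_eq_abs]
      _ ≤ ‖F‖ * ‖x‖ := F.le_opNorm x
      _ ≤ ‖F‖ * R := by gcongr
  have hpos : 0 < |f v| := abs_pos.2 hv
  have := key ((‖F‖ * R + 1) / |f v|)
  rw [abs_div, abs_abs, div_mul_cancel₀ _ hpos.ne'] at this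
  have h2 : ‖F‖ * R + 1 ≤ |‖F‖ * R + 1| := le_abs_self _
  linarith

/-- The main lemma. -/
theorem card_torsion [FiniteDimensional ℝ V] (E : V →+ G)
    (hsurj : Function.Surjective E)
    (hdisc : ∃ r : ℝ, 0 < r ∧ ∀ x : V, ‖x‖ < r → E x = 0 → x = 0)
    (hbdd : ∃ R : ℝ, ∀ y : G, ∃ x : V, ‖x‖ ≤ R ∧ E x = y)
    (n : ℕ) (hn : 0 < n) :
    Nat.card {y : G // n • y = 0} = n ^ finrank ℝ V := by
  have : DiscreteTopology (kerZ E) := discreteTopology_kerZ E hdisc
  have : IsZLattice ℝ (kerZ E) := ⟨span_kerZ_eq_top E hbdd⟩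
  have : Module.Free ℤ (kerZ E) := ZLattice.module_free ℝ (kerZ E)
  have : Module.Finite ℤ (kerZ E) := ZLattice.module_finite ℝ (kerZ E)
  have hrank : finrank ℤ (kerZ E) = finrank ℝ V := ZLattice.rank ℝ (kerZ E)
  set d := finrank ℝ V with hd
  let b : Basis (Fin d) ℤ (kerZ E) := Module.finBasisOfFinrankEq ℤ (kerZ E) hrank
  have hn0 : (n : ℝ) ≠ 0 := by exact_mod_cast hn.ne'
  -- the torsion subgroup
  let T : AddSubgroup G := (nsmulAddMonoidHom (α := G) n).ker
  have hT : ∀ y : G, y ∈ T ↔ n • y = 0 := fun y => Iff.rfl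
  -- the auxiliary homomorphism `L → G`
  let φ0 : (Fin d → ℤ) →+ G :=
    { toFun := fun c => E ((n : ℝ)⁻¹ • ((b.equivFun.symm c : kerZ E) : V))
      map_zero' := by simp
      map_add' := by
        intro c c'
        rw [map_add, Submodule.coe_add, smul_add, map_add] }
  have hφ0 : ∀ c, φ0 c = E ((n : ℝ)⁻¹ • ((b.equivFun.symm c : kerZ E) : V)) := fun c => rfl
  have hnsmul : ∀ x : V, n • ((n : ℝ)⁻¹ • x) = x := by
    intro x
    rw [← Nat.cast_smul_eq_nsmul ℝ, smul_smul, mul_inv_cancel₀ hn0, one_smul]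
  have hφT : ∀ c, φ0 c ∈ T := by
    intro c
    rw [hT, hφ0, ← map_nsmul, hnsmul]
    exact (b.equivFun.symm c).2
  let φ : (Fin d → ℤ) →+ T := φ0.codRestrict T hφT
  have hφsurj : Function.Surjective φ := by
    rintro ⟨y, hy⟩
    obtain ⟨x, rfl⟩ := hsurj y
    have hx : n • x ∈ kerZ E := by
      rw [mem_kerZ, map_nsmul]; exact hy
    refine ⟨b.equivFun ⟨n • x, hx⟩, Subtype.ext ?_⟩
    change φ0 _ = E x
    rw [hφ0, LinearEquiv.symm_apply_apply]
    congr 1
    change (n : ℝ)⁻¹ • (n • x) = x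
    rw [← Nat.cast_smul_eq_nsmul ℝ, smul_smul, inv_mul_cancel₀ hn0, one_smul]
  let π : (Fin d → ℤ) →+ (Fin d → ZMod n) :=
    { toFun := fun c i => (c i : ZMod n)
      map_zero' := by ext i; simp
      map_add' := by intro c c'; ext i; simp }
  have hπsurj : Function.Surjective π := by
    intro c
    choose f hf using fun i => ZMod.intCast_surjective (c i)
    exact ⟨f, funext hf⟩
  have hker : φ.ker = π.ker := by
    ext c
    rw [AddMonoidHom.mem_ker, AddMonoidHom.mem_ker]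
    constructor
    · intro h
      have h0 : φ0 c = 0 := congrArg Subtype.val h
      rw [hφ0] at h0
      -- `x := (1/n) • l ∈ L`
      set l : kerZ E := b.equivFun.symm c with hl
      let x : kerZ E := ⟨(n : ℝ)⁻¹ • (l : V), h0⟩
      have hxl : n • x = l := by
        apply Subtype.ext
        change n • ((n : ℝ)⁻¹ • (l : V)) = l
        exact hnsmul _
      have hc : c = n • b.equivFun x := by
        rw [← map_nsmul, hxl, hl, LinearEquiv.apply_symm_apply]
      funext i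
      change ((c i : ℤ) : ZMod n) = 0
      rw [hc]
      simp
    · intro h
      have hdiv : ∀ i, (n : ℤ) ∣ c i := by
        intro i
        have : ((c i : ℤ) : ZMod n) = 0 := congrFun h i
        exact (ZMod.intCast_zmod_eq_zero_iff_dvd _ _).1 this
      choose e he using hdiv
      have hc : c = n • e := by
        funext i
        rw [he i]; simp
      apply Subtype.ext
      change φ0 c = 0
      rw [hφ0, hc, map_nsmul]
      change E ((n : ℝ)⁻¹ • (n • ((b.equivFun.symm e : kerZ E) : V))) = 0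
      rw [← Nat.cast_smul_eq_nsmul ℝ, smul_smul, inv_mul_cancel₀ hn0, one_smul]
      exact (b.equivFun.symm e).2
  have e1 : ((Fin d → ℤ) ⧸ φ.ker) ≃+ T := QuotientAddGroup.quotientKerEquivOfSurjective φ hφsurj
  have e2 : ((Fin d → ℤ) ⧸ π.ker) ≃+ (Fin d → ZMod n) :=
    QuotientAddGroup.quotientKerEquivOfSurjective π hπsurj
  have e3 : ((Fin d → ℤ) ⧸ φ.ker) ≃+ ((Fin d → ℤ) ⧸ π.ker) :=
    QuotientAddGroup.quotientAddEquivOfEq hker
  have hcard : Nat.card T = Nat.card (Fin d → ZMod n) :=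
    Nat.card_congr ((e1.symm.trans e3).trans e2).toEquiv
  have hT' : Nat.card {y : G // n • y = 0} = Nat.card T := rfl
  rw [hT', hcard, Nat.card_fun, Nat.card_zmod, Nat.card_fin]

/-- The version used for `Pic0`: `V = ℂ^g`, torsion expressed with `Submodule.torsionBy ℤ`. -/
theorem card_torsionBy_complex {g : ℕ} (E : (Fin g → ℂ) →+ G)
    (hsurj : Function.Surjective E)
    (hdisc : ∃ r : ℝ, 0 < r ∧ ∀ x : Fin g → ℂ, ‖x‖ < r → E x = 0 → x = 0)
    (hbdd : ∃ R : ℝ, ∀ y : G, ∃ x : Fin g → ℂ, ‖x‖ ≤ R ∧ E x = y)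
    (n : ℕ) (hn : 0 < n) :
    Nat.card (Submodule.torsionBy ℤ G (n : ℤ)).toAddSubgroup = n ^ (2 * g) := by
  have h := card_torsion E hsurj hdisc hbdd n hn
  have hfin : finrank ℝ (Fin g → ℂ) = 2 * g := by
    rw [← Module.finrank_mul_finrank ℝ ℂ (Fin g → ℂ), Complex.finrank_real_complex,
      Module.finrank_fin_fun]
  rw [hfin] at h
  rw [← h]
  refine Nat.card_congr (Equiv.subtypeEquivRight ?_)
  intro y
  change y ∈ Submodule.torsionBy ℤ G (n : ℤ) ↔ _
  rw [Submodule.mem_torsionBy_iff, natCast_zsmul]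

end Fermat.Agent.S27.Lattice
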