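import Fermat.Agent.S27.D.Abel
import Fermat.Agent.S27.E.Assembly
import Fermat.Agent.S27.ChartExists

/-! # S27: the case `K = ℂ` -/

set_option autoImplicit false

noncomputable section

namespace Fermat.Agent.S27

open AlgebraicCurve Fermat.Agent.S24.FF

theorem card_torsion_complex (F : Type*) [Field F] [Algebra ℂ F] [IsFF1 ℂ F] [NonConst ℂ F]
    (n : ℕ) (hn : 0 < n) :
    Nat.card (Pic0.torsion ℂ F n) = n ^ (2 * genusFF ℂ F) := by
  let ω : Module.Basis (Fin (genusFF ℂ F)) ℂ (WDiff ℂ F) :=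
    Module.finBasisOfFinrankEq ℂ (WDiff ℂ F) finrank_wdiff
  obtain ⟨E₁, hinj, hE⟩ := exists_abel ω
  exact E.card_torsion_of_abelJacobi exists_chart_nhd E₁ hinj
    (fun χ => ⟨χ.ab ω, continuousOn_ab χ ω, hE χ⟩) n hn

end Fermat.Agent.S27
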