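import Mathlib
import Fermat.Prelude.Def_AlgebraicCurve_DivisorClassGroup
import Fermat.Prelude.Def_AlgebraicCurve_IsCurveOver
import Fermat.Prelude.Def_AlgebraicCurve_Repartitions
import Fermat.Agent.S24.FFDeg

/-!
# S27: basic definitions (owner: helper27).  No proofs of substance here.

* `IsVal v f c`, `ev v f` : value of a function at a place (constant field = residue field)
* `LinEq D E`             : linear equivalence of divisors
* `pt v`                  : the divisor `1 • v`
* `WDiff K F`             : Weil differentials regular everywhere, `Dual (H1 0)`
* `singleRep v f`, `WDiff.loc` : local components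
* `Chart F`               : an analytic disc of places of a function field over `ℂ`
-/

set_option autoImplicit false

noncomputable section

namespace Fermat.Agent.S27

open AlgebraicCurve Fermat.Agent.S24.FF

section General

variable {K F : Type*} [Field K] [Field F] [Algebra K F]

/-- `F` is not just the constant field. -/
class NonConst (K F : Type*) [Field K] [Field F] [Algebra K F] : Prop where
  out : ∃ x : F, Transcendental K x

/-- `f` is regular at `v` with value `c`. -/
def IsVal (v : Place K F) (f : F) (c : K) : Prop :=
  f = algebraMap K F c ∨ 0 < v.ord (f - algebraMap K F c)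

open Classical in
/-- The value of `f` at `v` (junk value `0` when `f` has a pole at `v`). -/
def ev (v : Place K F) (f : F) : K :=
  if h : ∃ c : K, IsVal v f c then h.choose else 0

/-- Linear equivalence of divisors. -/
def LinEq (D E : Divisor K F) : Prop := D - E ∈ Divisor.principal (K := K) (F := F)

/-- The prime divisor attached to a place. -/
def pt (v : Place K F) : Divisor K F := Finsupp.single v 1

/-- `D` is the divisor of the nonzero function `f`. -/
def IsDivOf (D : Divisor K F) (f : F) : Prop := f ≠ 0 ∧ ∀ v : Place K F, D v = v.ord f

open Classical in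
/-- The class in `Pic0` of a divisor of degree zero (junk value `0` otherwise). -/
def cls (D : Divisor K F) : Pic0 K F :=
  if h : D ∈ Divisor.degZero (K := K) (F := F) then Pic0.mk ⟨D, h⟩ else 0

/-- Everywhere regular Weil differentials. -/
abbrev WDiff (K F : Type*) [Field K] [Field F] [Algebra K F] : Type _ :=
  Module.Dual K (H1 (0 : Divisor K F))

open Classical in
/-- The repartition with component `f` at `v` and `0` elsewhere. -/
def singleRep (v : Place K F) (f : F) : ↥(repartitions K F) :=
  ⟨Pi.single v f, mem_repartitions_of_finite <| (Set.finite_singleton v).subset fun w hw => by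
    by_contra hne
    have hwv : w ≠ v := hne
    apply hw
    simp [Pi.single_eq_of_ne hwv]⟩

/-- The class of a repartition in `H1 0`. -/
def h1mk (α : ↥(repartitions K F)) : H1 (0 : Divisor K F) := Submodule.Quotient.mk α

/-- Local component of a Weil differential: `f ↦ lam (f at v)`. -/
def WDiff.loc (lam : WDiff K F) (v : Place K F) (f : F) : K := lam (h1mk (singleRep v f))

end General

section Complex

/-- An analytic disc of places: `pl τ` (for `τ` in the ball) is a place at which `t - τ` is a
uniformizer; regular functions and regular Weil differentials are analytic along the disc. -/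
structure Chart (F : Type*) [Field F] [Algebra ℂ F] where
  /-- the parameter function -/
  t : F
  /-- centre -/
  c : ℂ
  /-- radius -/
  r : ℝ
  r_pos : 0 < r
  /-- the place with parameter value `τ` (junk outside the ball) -/
  pl : ℂ → Place ℂ F
  ord_t : ∀ τ ∈ Metric.ball c r, (pl τ).ord (t - algebraMap ℂ F τ) = 1
  analytic_ev : ∀ f : F, ∀ τ ∈ Metric.ball c r, 0 ≤ (pl τ).ord f →
    AnalyticAt ℂ (fun σ => ev (pl σ) f) τ
  analytic_loc : ∀ lam : WDiff ℂ F, ∀ τ ∈ Metric.ball c r,
    AnalyticAt ℂ (fun σ => lam.loc (pl σ) (t - algebraMap ℂ F σ)⁻¹) τ

namespace Chart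

variable {F : Type*} [Field F] [Algebra ℂ F] (χ : Chart F)

/-- the domain of the chart -/
def dom : Set ℂ := Metric.ball χ.c χ.r

/-- the coefficient `lam / dt` along the chart -/
def H (lam : WDiff ℂ F) (τ : ℂ) : ℂ := lam.loc (χ.pl τ) (χ.t - algebraMap ℂ F τ)⁻¹

end Chart

end Complex

end Fermat.Agent.S27
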