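import Fermat.Agent.S27.Defs

/-!
# S27 / A1: API for `IsVal` and `ev` (value of a function at a place)
-/

set_option autoImplicit false

noncomputable section

namespace Fermat.Agent.S27

open AlgebraicCurve Fermat.Agent.S24.FF

variable {K F : Type*} [Field K] [Field F] [Algebra K F]

/-- `x` lies in the maximal ideal of the place `v`. -/
def InMax (v : Place K F) (x : F) : Prop := x = 0 ∨ 0 < v.ord x

theorem isVal_iff_inMax {v : Place K F} {f : F} {c : K} :
    IsVal v f c ↔ InMax v (f - algebraMap K F c) := by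
  unfold IsVal InMax
  rw [sub_eq_zero]

theorem InMax.ord_nonneg {v : Place K F} {x : F} (h : InMax v x) : 0 ≤ v.ord x := by
  rcases h with rfl | h
  · simp
  · exact h.le

theorem InMax.add {v : Place K F} {x y : F} (hx : InMax v x) (hy : InMax v y) :
    InMax v (x + y) := by
  rcases hx with rfl | hx
  · simpa using hy
  rcases hy with rfl | hy
  · rw [add_zero]; exact Or.inr hx
  by_cases h0 : x + y = 0
  · exact Or.inl h0
  · exact Or.inr (lt_of_lt_of_le (lt_min hx hy) (min_ord_le_ord_add v h0))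

theorem InMax.neg {v : Place K F} {x : F} (hx : InMax v x) : InMax v (-x) := by
  rcases hx with rfl | hx
  · exact Or.inl neg_zero
  · exact Or.inr (by rwa [ord_neg])

theorem InMax.mul {v : Place K F} {x y : F} (hx : InMax v x) (hy : 0 ≤ v.ord y) :
    InMax v (x * y) := by
  rcases hx with rfl | hx
  · exact Or.inl (zero_mul _)
  rcases eq_or_ne y 0 with rfl | hy0
  · exact Or.inl (mul_zero _)
  have hx0 : x ≠ 0 := ne_zero_of_ord_ne_zero v hx.ne'
  exact Or.inr (by rw [v.ord_mul hx0 hy0]; omega)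

theorem not_inMax_algebraMap {v : Place K F} {c : K} (hc : c ≠ 0) :
    ¬ InMax v (algebraMap K F c) := by
  rintro (h | h)
  · exact hc (by simpa using h)
  · rw [ord_algebraMap] at h
    exact lt_irrefl _ h

theorem ord_nonneg_of_sub_inMax {v : Place K F} {f : F} {c : K}
    (h : InMax v (f - algebraMap K F c)) : 0 ≤ v.ord f := by
  rcases eq_or_ne f 0 with rfl | hf
  · simp
  have h1 := min_ord_le_ord_add v (f := f - algebraMap K F c) (g := algebraMap K F c)
    (by simpa using hf)
  rw [sub_add_cancel, ord_algebraMap] at h1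
  exact le_trans (le_min h.ord_nonneg le_rfl) h1

theorem IsVal.ord_nonneg {v : Place K F} {f : F} {c : K} (h : IsVal v f c) : 0 ≤ v.ord f :=
  ord_nonneg_of_sub_inMax (isVal_iff_inMax.1 h)

theorem IsVal.unique {v : Place K F} {f : F} {c c' : K} (h : IsVal v f c) (h' : IsVal v f c') :
    c = c' := by
  by_contra hne
  have h1 := (isVal_iff_inMax.1 h').add (isVal_iff_inMax.1 h).neg
  have h2 : (f - algebraMap K F c') + -(f - algebraMap K F c) = algebraMap K F (c - c') := by
    rw [map_sub]; ring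
  rw [h2] at h1
  exact not_inMax_algebraMap (sub_ne_zero.2 hne) h1

theorem ev_eq_of_isVal {v : Place K F} {f : F} {c : K} (h : IsVal v f c) : ev v f = c := by
  have hex : ∃ c : K, IsVal v f c := ⟨c, h⟩
  unfold ev
  rw [dif_pos hex]
  exact hex.choose_spec.unique h

theorem ev_algebraMap (v : Place K F) (c : K) : ev v (algebraMap K F c) = c :=
  ev_eq_of_isVal (Or.inl rfl)

theorem ev_of_ord_neg {v : Place K F} {f : F} (h : v.ord f < 0) : ev v f = 0 := by
  unfold ev
  rw [dif_neg]
  rintro ⟨c, hc⟩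
  exact absurd hc.ord_nonneg (not_le.2 h)

theorem IsVal.add {v : Place K F} {f g : F} {a b : K} (hf : IsVal v f a) (hg : IsVal v g b) :
    IsVal v (f + g) (a + b) := by
  rw [isVal_iff_inMax] at *
  have := hf.add hg
  have h2 : (f - algebraMap K F a) + (g - algebraMap K F b) = f + g - algebraMap K F (a + b) := by
    rw [map_add]; ring
  rwa [h2] at this

theorem IsVal.neg {v : Place K F} {f : F} {a : K} (hf : IsVal v f a) : IsVal v (-f) (-a) := by
  rw [isVal_iff_inMax] at *
  have := hf.neg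
  have h2 : -(f - algebraMap K F a) = -f - algebraMap K F (-a) := by
    rw [map_neg]; ring
  rwa [h2] at this

theorem IsVal.sub {v : Place K F} {f g : F} {a b : K} (hf : IsVal v f a) (hg : IsVal v g b) :
    IsVal v (f - g) (a - b) := by
  rw [sub_eq_add_neg, sub_eq_add_neg]
  exact hf.add hg.neg

theorem IsVal.mul {v : Place K F} {f g : F} {a b : K} (hf : IsVal v f a) (hg : IsVal v g b) :
    IsVal v (f * g) (a * b) := by
  have hg0 := hg.ord_nonneg
  rw [isVal_iff_inMax] at *
  have h1 := hf.mul hg0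
  have h2 := hg.mul (y := algebraMap K F a) (by rw [ord_algebraMap])
  have h3 := h1.add h2
  have h4 : (f - algebraMap K F a) * g + (g - algebraMap K F b) * algebraMap K F a
      = f * g - algebraMap K F (a * b) := by
    rw [map_mul]; ring
  rwa [h4] at h3

theorem isVal_algebraMap (v : Place K F) (c : K) : IsVal v (algebraMap K F c) c := Or.inl rfl

theorem IsVal.pow {v : Place K F} {f : F} {a : K} (hf : IsVal v f a) (n : ℕ) :
    IsVal v (f ^ n) (a ^ n) := by
  induction n with
  | zero => simpa using isVal_algebraMap v (1 : K)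
  | succ n ih => rw [pow_succ, pow_succ]; exact ih.mul hf

theorem IsVal.ord_eq_zero {v : Place K F} {f : F} {a : K} (hf : IsVal v f a) (ha : a ≠ 0) :
    f ≠ 0 ∧ v.ord f = 0 := by
  have ha' : algebraMap K F a ≠ 0 := by simpa using ha
  rcases hf with rfl | h
  · exact ⟨ha', ord_algebraMap v a⟩
  · have h1 := ord_add_eq_of_lt v (f := algebraMap K F a) (g := f - algebraMap K F a) ha'
      (by rwa [ord_algebraMap])
    rw [add_sub_cancel, ord_algebraMap] at h1
    refine ⟨?_, h1⟩
    rintro rfl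
    rw [zero_sub, ord_neg, ord_algebraMap] at h
    exact lt_irrefl _ h

theorem IsVal.inv {v : Place K F} {f : F} {a : K} (hf : IsVal v f a) (ha : a ≠ 0) :
    IsVal v f⁻¹ a⁻¹ := by
  obtain ⟨hf0, hord⟩ := hf.ord_eq_zero ha
  have ha' : algebraMap K F a ≠ 0 := by simpa using ha
  rw [isVal_iff_inMax] at *
  have h1 := hf.neg.mul (y := f⁻¹ * algebraMap K F a⁻¹) (by
    rw [v.ord_mul (inv_ne_zero hf0) (by simpa using ha), v.ord_inv, hord, ord_algebraMap]
    simp)
  have h2 : -(f - algebraMap K F a) * (f⁻¹ * algebraMap K F a⁻¹) = f⁻¹ - algebraMap K F a⁻¹ := by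
    rw [map_inv₀]
    field_simp
    ring
  rwa [h2] at h1

theorem isVal_zero_iff {v : Place K F} {f : F} : IsVal v f 0 ↔ f = 0 ∨ 0 < v.ord f := by
  rw [isVal_iff_inMax, map_zero, sub_zero]
  rfl

theorem IsVal.aeval {v : Place K F} {f : F} {a : K} (hf : IsVal v f a) (p : Polynomial K) :
    IsVal v (Polynomial.aeval f p) (p.eval a) := by
  induction p using Polynomial.induction_on' with
  | add p q hp hq => rw [map_add, Polynomial.eval_add]; exact hp.add hq
  | monomial n c =>
    rw [Polynomial.aeval_monomial, Polynomial.eval_monomial]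
    exact (isVal_algebraMap v c).mul (hf.pow n)

section
variable [IsAlgClosed K] [IsFF1 K F]

theorem isVal_ev {v : Place K F} {f : F} (h : 0 ≤ v.ord f) : IsVal v f (ev v f) := by
  obtain ⟨c, hc⟩ := exists_const_of_ord_nonneg v h
  have hc' : IsVal v f c := hc
  rw [ev_eq_of_isVal hc']
  exact hc'

theorem ev_add {v : Place K F} {f g : F} (hf : 0 ≤ v.ord f) (hg : 0 ≤ v.ord g) :
    ev v (f + g) = ev v f + ev v g :=
  ev_eq_of_isVal ((isVal_ev hf).add (isVal_ev hg))

theorem ev_sub {v : Place K F} {f g : F} (hf : 0 ≤ v.ord f) (hg : 0 ≤ v.ord g) :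
    ev v (f - g) = ev v f - ev v g :=
  ev_eq_of_isVal ((isVal_ev hf).sub (isVal_ev hg))

theorem ev_mul {v : Place K F} {f g : F} (hf : 0 ≤ v.ord f) (hg : 0 ≤ v.ord g) :
    ev v (f * g) = ev v f * ev v g :=
  ev_eq_of_isVal ((isVal_ev hf).mul (isVal_ev hg))

theorem ev_eq_zero_iff {v : Place K F} {f : F} (hf : 0 ≤ v.ord f) :
    ev v f = 0 ↔ f = 0 ∨ 0 < v.ord f := by
  rw [← isVal_zero_iff]
  constructor
  · intro h
    have := isVal_ev hf
    rwa [h] at this
  · intro h
    exact ev_eq_of_isVal h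

theorem ev_ne_zero_of_ord_eq_zero {v : Place K F} {f : F} (hf0 : f ≠ 0) (hf : v.ord f = 0) :
    ev v f ≠ 0 := by
  rw [Ne, ev_eq_zero_iff hf.ge]
  rintro (h | h)
  · exact hf0 h
  · rw [hf] at h
    exact lt_irrefl _ h

theorem ev_inv {v : Place K F} {f : F} (hf0 : f ≠ 0) (hf : v.ord f = 0) :
    ev v f⁻¹ = (ev v f)⁻¹ :=
  ev_eq_of_isVal ((isVal_ev hf.ge).inv (ev_ne_zero_of_ord_eq_zero hf0 hf))

/-- `ord_v (f - c) > 0` pins down the value. -/
theorem ev_eq_of_ord_sub_pos {v : Place K F} {f : F} {c : K}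
    (h : 0 < v.ord (f - algebraMap K F c)) : ev v f = c :=
  ev_eq_of_isVal (Or.inr h)

/-- decomposition `f = (f t^{-m})(v) t^m + higher order`. -/
theorem ord_sub_lead {v : Place K F} {f t : F} (ht : v.ord t = 1) (hf : f ≠ 0) :
    f = algebraMap K F (ev v (f * t ^ (-(v.ord f)))) * t ^ (v.ord f) ∨
    v.ord f < v.ord (f - algebraMap K F (ev v (f * t ^ (-(v.ord f)))) * t ^ (v.ord f)) := by
  have ht0 : t ≠ 0 := ne_zero_of_ord_ne_zero v (by rw [ht]; exact one_ne_zero)
  set m := v.ord f with hm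
  set u := f * t ^ (-m) with hu
  have htm : t ^ (-m) ≠ 0 := zpow_ne_zero _ ht0
  have htm' : t ^ m ≠ 0 := zpow_ne_zero _ ht0
  have hu_ord : v.ord u = 0 := by
    rw [hu, v.ord_mul hf htm, v.ord_zpow, ht, ← hm]
    ring
  have hval := isVal_ev (v := v) (f := u) hu_ord.ge
  have hfu : f = u * t ^ m := by
    rw [hu, mul_assoc, ← zpow_add₀ ht0]
    simp
  rcases hval with h | h
  · left
    rw [← h]
    exact hfu
  · right
    have hne : u - algebraMap K F (ev v u) ≠ 0 := ne_zero_of_ord_ne_zero v h.ne'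
    have h2 : f - algebraMap K F (ev v u) * t ^ m = (u - algebraMap K F (ev v u)) * t ^ m := by
      rw [sub_mul, ← hfu]
    rw [h2, v.ord_mul hne htm', v.ord_zpow, ht]
    omega

end

end Fermat.Agent.S27
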