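import Fermat.Agent.S27.WRR

/-! # S27 / W3: consequences of Riemann's theorem: functions with prescribed poles

`l(D) - h1(D) = deg D + 1 - g` (RiemannI), `h1(D) = 0` for `D ≥` a non-special tuple (WRR).
* `const_of_nonSpecial`: `l = g + 1 - g + 0 = 1` and the constants are in `L(D)`.
* `exists_simple_pole`: `l(q + ∑ v i) = 2`, so there is a non-constant `f`; if `f` were regular at
  `q` it would be in `L(∑ v i)`, hence constant.
* `exists_effective_repr`: `l(D + g v₀) ≥ 1`; for `0 ≠ f` in it, `D + g v₀ + div f ≥ 0` has degree `g`,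
  so it is a sum of `g` places.
* `exists_pole_only_at`: `l((g+1) p) ≥ 2`.
* `eq_of_linEq_nonSpecial`: if `∑ w - ∑ v = div f` then `f ∈ L(∑ v)` is constant, `div f = 0`.
-/

set_option autoImplicit false

noncomputable section

namespace Fermat.Agent.S27

open AlgebraicCurve Fermat.Agent.S24.FF

section Aux

variable {K F : Type*} [Field K] [Field F] [Algebra K F]

open Classical in
theorem pt_apply (v w : Place K F) : pt v w = if v = w then 1 else 0 := by
  rw [pt, Finsupp.single_apply]

theorem pt_apply_self (v : Place K F) : pt v v = 1 := by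
  rw [pt, Finsupp.single_eq_same]

theorem pt_apply_of_ne {v w : Place K F} (h : v ≠ w) : pt v w = 0 := by
  rw [pt, Finsupp.single_eq_of_ne' h]

theorem pt_nonneg (v : Place K F) : 0 ≤ pt v := by
  intro w
  classical
  rw [pt_apply]
  split_ifs <;> simp

theorem sum_pt_nonneg {n : ℕ} (v : Fin n → Place K F) : 0 ≤ ∑ i, pt (v i) :=
  Finset.sum_nonneg fun i _ => pt_nonneg (v i)

theorem sum_pt_apply_of_forall_ne {n : ℕ} (v : Fin n → Place K F) {w : Place K F}
    (h : ∀ i, v i ≠ w) : (∑ i, pt (v i)) w = 0 := by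
  rw [Finsupp.finsetSum_apply]
  exact Finset.sum_eq_zero fun i _ => pt_apply_of_ne (h i)

theorem sum_pt_apply_of_injective {n : ℕ} {v : Fin n → Place K F} (hv : Function.Injective v)
    (i : Fin n) : (∑ j, pt (v j)) (v i) = 1 := by
  rw [Finsupp.finsetSum_apply, Finset.sum_eq_single i, pt_apply_self]
  · intro j _ hj
    exact pt_apply_of_ne fun h => hj (hv h)
  · intro h
    exact absurd (Finset.mem_univ i) h

/-- the constants lie in `L(D)` for `D ≥ 0` -/
theorem algebraMap_mem_riemannRochSpace {D : Divisor K F} (hD : 0 ≤ D) (c : K) :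
    algebraMap K F c ∈ riemannRochSpace D := by
  rw [mem_riemannRochSpace_iff]
  intro v
  right
  rw [ord_algebraMap]
  have := hD v
  simp only [Finsupp.coe_zero, Pi.zero_apply] at this
  omega

/-- if `2 ≤ l(D)`, there is a non-constant function in `L(D)` -/
theorem exists_nonconst_of_two_le {D : Divisor K F}
    (h : 2 ≤ Module.finrank K (riemannRochSpace D)) :
    ∃ f ∈ riemannRochSpace D, ∀ c : K, f ≠ algebraMap K F c := by
  by_contra hcon
  push Not at hcon
  have hle : riemannRochSpace D ≤ Submodule.span K {(1 : F)} := by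
    intro f hf
    obtain ⟨c, hc⟩ := hcon f hf
    rw [Submodule.mem_span_singleton]
    exact ⟨c, by rw [hc, Algebra.smul_def, mul_one]⟩
  have h1 := Submodule.finrank_mono hle
  have h2 : Module.finrank K (Submodule.span K {(1 : F)}) ≤ 1 := by
    have := finrank_span_le_card (R := K) ({(1 : F)} : Set F)
    simpa using this
  omega

end Aux

variable {K F : Type*} [Field K] [Field F] [Algebra K F] [IsAlgClosed K] [CharZero K] [IsFF1 K F]

theorem degree_sum_pt {n : ℕ} (v : Fin n → Place K F) :
    Divisor.degree (∑ i, pt (v i)) = n := by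
  rw [map_sum]
  simp [degree_pt]

/-- an effective divisor of degree `n` is a sum of `n` places -/
theorem exists_eq_sum_pt (n : ℕ) (E : Divisor K F) (hE : 0 ≤ E) (hdeg : Divisor.degree E = n) :
    ∃ w : Fin n → Place K F, E = ∑ i, pt (w i) := by
  induction n generalizing E with
  | zero =>
    refine ⟨Fin.elim0, ?_⟩
    rw [Finset.univ_eq_empty, Finset.sum_empty]
    rw [degree_eq_sum, Finsupp.sum] at hdeg
    have hz : ∀ v ∈ E.support, E v = 0 := by
      apply (Finset.sum_eq_zero_iff_of_nonneg fun v _ => hE v).mp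
      simpa using hdeg
    ext v
    by_cases hv : v ∈ E.support
    · exact hz v hv
    · simpa using hv
  | succ n ih =>
    have hex : ∃ v, 0 < E v := by
      by_contra hcon
      push Not at hcon
      have hE0 : E = 0 := by
        ext v
        exact le_antisymm (hcon v) (hE v)
      rw [hE0, map_zero] at hdeg
      have : (0 : ℤ) = (n : ℤ) + 1 := by exact_mod_cast hdeg
      omega
    obtain ⟨v, hv⟩ := hex
    have hE' : 0 ≤ E - pt v := by
      intro w
      rw [Finsupp.coe_sub, Pi.sub_apply]
      by_cases hw : v = w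
      · subst hw
        rw [pt_apply_self]
        simp only [Finsupp.coe_zero, Pi.zero_apply]
        omega
      · rw [pt_apply_of_ne hw, sub_zero]
        exact hE w
    have hdeg' : Divisor.degree (E - pt v) = n := by
      rw [map_sub, hdeg, degree_pt]
      push_cast
      ring
    obtain ⟨w, hw⟩ := ih (E - pt v) hE' hdeg'
    refine ⟨Fin.cons v w, ?_⟩
    rw [Fin.sum_univ_succ]
    simp only [Fin.cons_zero, Fin.cons_succ]
    rw [← hw]
    abel

variable [NonConst K F]

theorem finrank_H1_eq_zero_of_nonSpecial {n : ℕ} {v : Fin n → Place K F} (hv : NonSpecial v)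
    (D : Divisor K F) (hD : ∑ i, pt (v i) ≤ D) : Module.finrank K (H1 D) = 0 := by
  have := subsingleton_H1_of_nonSpecial hv D hD
  exact Module.finrank_zero_of_subsingleton

/-- `l(∑ pt (v i)) = 1` for a non-special `g`-tuple -/
theorem const_of_nonSpecial {v : Fin (genusFF K F) → Place K F} (hv : NonSpecial v) (f : F)
    (hf : f ∈ riemannRochSpace (∑ i, pt (v i))) : ∃ c : K, f = algebraMap K F c := by
  have hRR := finrank_riemannRochSpace_sub_finrank_H1 (K := K) (F := F) (∑ i, pt (v i))
  rw [finrank_H1_eq_zero_of_nonSpecial hv _ le_rfl, degree_sum_pt] at hRR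
  have hl : Module.finrank K (riemannRochSpace (∑ i, pt (v i))) = 1 := by
    have : (Module.finrank K (riemannRochSpace (∑ i, pt (v i))) : ℤ) = 1 := by
      push_cast at hRR
      linarith
    exact_mod_cast this
  have h1mem : (1 : F) ∈ riemannRochSpace (∑ i, pt (v i)) := by
    have := algebraMap_mem_riemannRochSpace (sum_pt_nonneg v) (1 : K)
    rwa [map_one] at this
  have hne : (⟨1, h1mem⟩ : riemannRochSpace (∑ i, pt (v i))) ≠ 0 := by
    intro h
    have := congrArg Subtype.val h
    simp at this
  obtain ⟨c, hc⟩ := (finrank_eq_one_iff_of_nonzero' _ hne).mp hl ⟨f, hf⟩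
  refine ⟨c, ?_⟩
  have := congrArg Subtype.val hc
  simp only [SetLike.mk_smul_mk] at this
  rw [← this, Algebra.smul_def, mul_one]

/-- a function with a simple pole at `q` and at most simple poles at a non-special `g`-tuple -/
theorem exists_simple_pole {v : Fin (genusFF K F) → Place K F} (hv : NonSpecial v)
    (q : Place K F) (hq : ∀ i, v i ≠ q) :
    ∃ f : F, q.ord f = -1 ∧ (∀ i, -1 ≤ (v i).ord f) ∧
      ∀ w : Place K F, w ≠ q → (∀ i, w ≠ v i) → 0 ≤ w.ord f := by
  set D : Divisor K F := ∑ i, pt (v i) with hD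
  have hle : D ≤ pt q + D := le_add_of_nonneg_left (pt_nonneg q)
  have hRR := finrank_riemannRochSpace_sub_finrank_H1 (K := K) (F := F) (pt q + D)
  rw [finrank_H1_eq_zero_of_nonSpecial hv _ hle, map_add, degree_pt, hD, degree_sum_pt] at hRR
  rw [← hD] at hRR
  have hl : 2 ≤ Module.finrank K (riemannRochSpace (pt q + D)) := by
    have : (Module.finrank K (riemannRochSpace (pt q + D)) : ℤ) = 2 := by
      push_cast at hRR
      linarith
    have h2 : Module.finrank K (riemannRochSpace (pt q + D)) = 2 := by exact_mod_cast this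
    omega
  obtain ⟨f, hf, hnc⟩ := exists_nonconst_of_two_le hl
  have hf0 : f ≠ 0 := by
    intro h
    exact hnc 0 (by rw [h, map_zero])
  rw [mem_riemannRochSpace_iff] at hf
  have hord : ∀ w : Place K F, -(pt q + D) w ≤ w.ord f := fun w => (hf w).resolve_left hf0
  have hq1 : -1 ≤ q.ord f := by
    have := hord q
    rwa [Finsupp.add_apply, pt_apply_self, hD, sum_pt_apply_of_forall_ne v hq, add_zero] at this
  have hvi : ∀ i, -1 ≤ (v i).ord f := by
    intro i
    have := hord (v i)
    rwa [Finsupp.add_apply, pt_apply_of_ne (hq i).symm, hD, sum_pt_apply_of_injective hv.1,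
      zero_add] at this
  have hw : ∀ w : Place K F, w ≠ q → (∀ i, w ≠ v i) → 0 ≤ w.ord f := by
    intro w hwq hwv
    have := hord w
    rwa [Finsupp.add_apply, pt_apply_of_ne hwq.symm, hD,
      sum_pt_apply_of_forall_ne v (fun i => (hwv i).symm), add_zero, neg_zero] at this
  refine ⟨f, ?_, hvi, hw⟩
  by_contra hne
  have hq0 : 0 ≤ q.ord f := by omega
  -- then `f ∈ L(D)`, hence constant
  have hfD : f ∈ riemannRochSpace D := by
    rw [mem_riemannRochSpace_iff]
    intro w
    right
    by_cases hwq : w = q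
    · subst hwq
      rw [hD, sum_pt_apply_of_forall_ne v hq, neg_zero]
      exact hq0
    · have := hord w
      rwa [Finsupp.add_apply, pt_apply_of_ne (Ne.symm hwq), zero_add] at this
  obtain ⟨c, hc⟩ := const_of_nonSpecial hv f hfD
  exact hnc c hc

/-- every class of degree zero is `[w_1 + .. + w_g - g v₀]` -/
theorem exists_effective_repr (x : Pic0 K F) (v₀ : Place K F) :
    ∃ w : Fin (genusFF K F) → Place K F,
      x = cls (∑ i, pt (w i) - (genusFF K F : ℤ) • pt v₀) := by
  obtain ⟨D, hD0, rfl⟩ := cls_surjective x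
  set g := genusFF K F with hg
  set D₁ : Divisor K F := D + (g : ℤ) • pt v₀ with hD₁
  have hdeg₁ : Divisor.degree D₁ = g := by
    rw [hD₁, map_add, hD0, map_zsmul, degree_pt]
    simp
  have hRR := finrank_riemannRochSpace_sub_finrank_H1 (K := K) (F := F) D₁
  rw [hdeg₁] at hRR
  have hl : 0 < Module.finrank K (riemannRochSpace D₁) := by
    have : (0 : ℤ) < Module.finrank K (riemannRochSpace D₁) := by
      have h0 : (0 : ℤ) ≤ Module.finrank K (H1 D₁) := Int.natCast_nonneg _
      linarith
    exact_mod_cast this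
  have hnt : Nontrivial (riemannRochSpace D₁) := Module.nontrivial_of_finrank_pos hl
  obtain ⟨⟨f, hf⟩, hfne⟩ := exists_ne (0 : riemannRochSpace D₁)
  have hf0 : f ≠ 0 := by
    intro h
    apply hfne
    exact Subtype.ext h
  obtain ⟨Df, hDf⟩ := exists_isDivOf (K := K) f hf0
  rw [mem_riemannRochSpace_iff] at hf
  have hE : 0 ≤ D₁ + Df := by
    intro w
    have := (hf w).resolve_left hf0
    rw [Finsupp.add_apply, hDf.2 w]
    simp only [Finsupp.coe_zero, Pi.zero_apply]
    omega
  have hEdeg : Divisor.degree (D₁ + Df) = g := by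
    rw [map_add, hdeg₁, hDf.degree, add_zero]
  obtain ⟨w, hw⟩ := exists_eq_sum_pt g (D₁ + Df) hE hEdeg
  refine ⟨w, ?_⟩
  have hdeg2 : Divisor.degree (∑ i, pt (w i) - (g : ℤ) • pt v₀) = 0 := by
    rw [map_sub, degree_sum_pt, map_zsmul, degree_pt]
    simp
  rw [cls_eq_cls_iff hD0 hdeg2, LinEq, ← hw, hD₁]
  have : D - (D + (g : ℤ) • pt v₀ + Df - (g : ℤ) • pt v₀) = -Df := by abel
  rw [this]
  exact neg_mem (Divisor.mem_principal.mpr ⟨f, hDf.1, hDf.2⟩)

/-- a function whose only pole is `p` -/
theorem exists_pole_only_at (p : Place K F) :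
    ∃ f : F, p.ord f < 0 ∧ ∀ w : Place K F, w ≠ p → 0 ≤ w.ord f := by
  set g := genusFF K F with hg
  set D : Divisor K F := ((g : ℤ) + 1) • pt p with hD
  have hdeg : Divisor.degree D = g + 1 := by
    rw [hD, map_zsmul, degree_pt]
    simp
  have hRR := finrank_riemannRochSpace_sub_finrank_H1 (K := K) (F := F) D
  rw [hdeg] at hRR
  have hl : 2 ≤ Module.finrank K (riemannRochSpace D) := by
    have : (2 : ℤ) ≤ Module.finrank K (riemannRochSpace D) := by
      have h0 : (0 : ℤ) ≤ Module.finrank K (H1 D) := Int.natCast_nonneg _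
      linarith
    exact_mod_cast this
  obtain ⟨f, hf, hnc⟩ := exists_nonconst_of_two_le hl
  have hf0 : f ≠ 0 := by
    intro h
    exact hnc 0 (by rw [h, map_zero])
  rw [mem_riemannRochSpace_iff] at hf
  have hw : ∀ w : Place K F, w ≠ p → 0 ≤ w.ord f := by
    intro w hwp
    have := (hf w).resolve_left hf0
    rwa [hD, Finsupp.smul_apply, pt_apply_of_ne hwp.symm, smul_zero, neg_zero] at this
  refine ⟨f, ?_, hw⟩
  by_contra hcon
  rw [not_lt] at hcon
  obtain ⟨c, hc⟩ := eq_algebraMap_of_forall_ord_nonneg (K := K) f (fun w => by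
    by_cases hwp : w = p
    · rw [hwp]; exact hcon
    · exact hw w hwp)
  exact hnc c hc

/-- the only effective divisor linearly equivalent to a non-special `g`-tuple is itself -/
theorem eq_of_linEq_nonSpecial {v : Fin (genusFF K F) → Place K F} (hv : NonSpecial v)
    (w : Fin (genusFF K F) → Place K F) (h : LinEq (∑ i, pt (w i)) (∑ i, pt (v i))) :
    ∑ i, pt (w i) = ∑ i, pt (v i) := by
  obtain ⟨f, hf0, hf⟩ := Divisor.mem_principal.mp h
  have hfL : f ∈ riemannRochSpace (∑ i, pt (v i)) := by
    rw [mem_riemannRochSpace_iff]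
    intro u
    right
    rw [← hf u, Finsupp.sub_apply]
    have := sum_pt_nonneg w u
    simp only [Finsupp.coe_zero, Pi.zero_apply] at this
    omega
  obtain ⟨c, hc⟩ := const_of_nonSpecial hv f hfL
  ext u
  have := hf u
  rw [hc, ord_algebraMap, Finsupp.sub_apply] at this
  omega

end Fermat.Agent.S27
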