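import Fermat.Agent.S27.Ev
import Fermat.Agent.S27.FibBasic

/-! # S27 / A6: local power basis at a reduced fibre (Vandermonde argument)

`t` has `d = [F : K(t)]` distinct zeros `v_1 .. v_d` (so all simple), `y` is regular at them with
pairwise distinct values `b_k`.  Then `1, y, .., y^(d-1)` is a `K(t)`-basis of `F` and every `f`
regular at all `v_k` satisfies `q(t) f = ∑_j p_j(t) y^j` with polynomials `p_j, q`, `q(0) ≠ 0`.

Proof sketch: (1) if `∑_j p_j(t) y^j = 0` with `p_j` not all zero, divide by the largest common power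
of `X`; evaluating at `v_k` gives `∑_j p_j(0) b_k^j = 0` for all `k`, so by Vandermonde all
`p_j(0) = 0`, contradiction.  So the `y^j` are independent over `K(t)`, hence a basis (dimension).
(2) write `q(t) f = ∑ p_j(t) y^j` with `q ≠ 0`; if `q(0) = 0` evaluate at the `v_k` to get
`p_j(0) = 0` for all `j` and divide everything by `X`; induct on the degree of `q`. -/

set_option autoImplicit false
set_option linter.unusedSectionVars false

noncomputable section

namespace Fermat.Agent.S27

open AlgebraicCurve Fermat.Agent.S24.FF Polynomial IntermediateField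

namespace LocalBasis

variable {K F : Type*} [Field K] [Field F] [Algebra K F]

theorem isVal_zero_zero (v : Place K F) : IsVal v (0 : F) 0 := Or.inl (by simp)

theorem isVal_finset_sum {ι : Type*} {v : Place K F} (s : Finset ι) (f : ι → F) (a : ι → K)
    (h : ∀ i ∈ s, IsVal v (f i) (a i)) : IsVal v (∑ i ∈ s, f i) (∑ i ∈ s, a i) := by
  classical
  induction s using Finset.induction_on with
  | empty => simpa using isVal_zero_zero v
  | insert i s hi ih =>
    rw [Finset.sum_insert hi, Finset.sum_insert hi]
    exact (h i (Finset.mem_insert_self i s)).add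
      (ih fun j hj => h j (Finset.mem_insert_of_mem hj))

theorem isVal_zero_of_ord_pos {v : Place K F} {t : F} (ht : 0 < v.ord t) : IsVal v t 0 :=
  Or.inr (by simpa using ht)

/-- the Vandermonde step: a relation whose left side vanishes at all `v k` has all `p j (0) = 0` -/
theorem localBasis_eval_zero {d : ℕ} (t y : F) (v : Fin d → Place K F) (b : Fin d → K)
    (hb : Function.Injective b) (ht : ∀ k, 0 < (v k).ord t) (hy : ∀ k, IsVal (v k) y (b k))
    (p : Fin d → K[X]) (g : F) (hg : ∀ k, IsVal (v k) g 0)
    (h : g = ∑ j, aeval t (p j) * y ^ (j : ℕ)) : ∀ j, (p j).eval 0 = 0 := by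
  have key : ∀ k, ∑ j, (p j).eval 0 * b k ^ (j : ℕ) = 0 := by
    intro k
    have h1 : IsVal (v k) (∑ j, aeval t (p j) * y ^ (j : ℕ)) (∑ j, (p j).eval 0 * b k ^ (j : ℕ)) :=
      isVal_finset_sum _ _ _ fun j _ =>
        ((isVal_zero_of_ord_pos (ht k)).aeval (p j)).mul ((hy k).pow j)
    rw [← h] at h1
    exact h1.unique (hg k)
  have hdet : (Matrix.vandermonde b).det ≠ 0 := Matrix.det_vandermonde_ne_zero_iff.mpr hb
  have hmv : (Matrix.vandermonde b).mulVec (fun j => (p j).eval 0) = 0 := by
    funext k
    simp only [Matrix.mulVec, dotProduct, Matrix.vandermonde_apply, Pi.zero_apply]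
    refine Eq.trans ?_ (key k)
    exact Finset.sum_congr rfl fun j _ => mul_comm _ _
  have := Matrix.eq_zero_of_mulVec_eq_zero hdet hmv
  intro j
  exact congrFun this j

theorem eq_X_mul_divX_of_eval_zero {p : K[X]} (h : p.eval 0 = 0) : p = X * p.divX := by
  have := p.divX_mul_X_add
  rw [← coeff_zero_eq_eval_zero] at h
  rw [h] at this
  simp at this
  rw [mul_comm]; exact this.symm

/-- common denominators for finitely many elements of `K(t)` -/
theorem exists_common_denom (t : F) {ι : Type*} (s : Finset ι)
    (g : ι → K⟮t⟯) :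
    ∃ q : K[X], aeval t q ≠ 0 ∧ ∀ j ∈ s, ∃ p : K[X], aeval t q * (g j : F) = aeval t p := by
  classical
  induction s using Finset.induction_on with
  | empty => exact ⟨1, by simp, by simp⟩
  | insert i s hi ih =>
    obtain ⟨q, hq, hqs⟩ := ih
    obtain ⟨r, u, hru⟩ := (IntermediateField.mem_adjoin_simple_iff K (g i : F)).mp (g i).2
    rcases eq_or_ne (aeval t u) 0 with hu | hu
    · refine ⟨q, hq, fun j hj => ?_⟩
      rcases Finset.mem_insert.mp hj with rfl | hj
      · exact ⟨0, by rw [hru, hu]; simp⟩
      · exact hqs j hj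
    · refine ⟨q * u, by rw [map_mul]; exact mul_ne_zero hq hu, fun j hj => ?_⟩
      rcases Finset.mem_insert.mp hj with rfl | hj
      · refine ⟨q * r, ?_⟩
        rw [hru, map_mul, map_mul]
        field_simp
      · obtain ⟨p, hp⟩ := hqs j hj
        refine ⟨u * p, ?_⟩
        rw [map_mul, map_mul, ← hp]
        ring

end LocalBasis

open LocalBasis

variable {K F : Type*} [Field K] [Field F] [Algebra K F] [IsAlgClosed K] [CharZero K] [IsFF1 K F]

theorem localBasis_indep {d : ℕ} (t y : F) (v : Fin d → Place K F) (b : Fin d → K)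
    (hb : Function.Injective b) (ht : ∀ k, 0 < (v k).ord t) (hy : ∀ k, IsVal (v k) y (b k))
    (p : Fin d → K[X]) (h : ∑ j, aeval t (p j) * y ^ (j : ℕ) = 0) : p = 0 := by
  rcases Nat.eq_zero_or_pos d with rfl | hd
  · funext j; exact j.elim0
  have ht0 : t ≠ 0 := ne_zero_of_ord_ne_zero (v ⟨0, hd⟩) (ht ⟨0, hd⟩).ne'
  have main : ∀ n : ℕ, ∀ p : Fin d → K[X], (∀ j, (p j).degree < n) →
      ∑ j, aeval t (p j) * y ^ (j : ℕ) = 0 → p = 0 := by
    intro n
    induction n with
    | zero =>
      intro p hp _
      funext j
      have := hp j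
      simpa using this
    | succ n ih =>
      intro p hp h
      have h0 := localBasis_eval_zero t y v b hb ht hy p 0 (fun k => isVal_zero_zero _) h.symm
      have hX : ∀ j, p j = X * (p j).divX := fun j => eq_X_mul_divX_of_eval_zero (h0 j)
      have hdiv : (fun j => (p j).divX) = 0 := by
        apply ih
        · intro j
          rcases eq_or_ne (p j) 0 with hj | hj
          · rw [hj]; simp
          · have h1 := degree_divX_lt hj
            have h2 := hp j
            have h3 : (p j).degree ≤ n :=
              degree_le_of_natDegree_le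
                (Nat.lt_succ_iff.mp ((natDegree_lt_iff_degree_lt hj).mpr h2))
            exact lt_of_lt_of_le h1 h3
        · have : t * ∑ j, aeval t ((p j).divX) * y ^ (j : ℕ) = 0 := by
            rw [Finset.mul_sum, ← h]
            refine Finset.sum_congr rfl fun j _ => ?_
            conv_rhs => rw [hX j]
            simp [mul_assoc]
          exact (mul_eq_zero.mp this).resolve_left ht0
      funext j
      rw [hX j, congrFun hdiv j]
      simp
  obtain ⟨n, hn⟩ : ∃ n : ℕ, ∀ j, (p j).degree < n := by
    refine ⟨(Finset.univ.sup fun j => (p j).natDegree) + 1, fun j => ?_⟩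
    have h1 : (p j).natDegree ≤ Finset.univ.sup fun j => (p j).natDegree :=
      Finset.le_sup (f := fun j => (p j).natDegree) (Finset.mem_univ j)
    calc (p j).degree ≤ (p j).natDegree := degree_le_natDegree
      _ < ((Finset.univ.sup fun j => (p j).natDegree) + 1 : ℕ) := by
        exact_mod_cast Nat.lt_succ_of_le h1
  exact main n p hn h

/-- every element of `F` is a fraction -/
theorem localBasis_gen {d : ℕ} (t y : F) (htr : Transcendental K t)
    (hd : Module.finrank K⟮t⟯ F = d) (v : Fin d → Place K F) (b : Fin d → K)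
    (hb : Function.Injective b) (ht : ∀ k, 0 < (v k).ord t) (hy : ∀ k, IsVal (v k) y (b k))
    (f : F) :
    ∃ (q : K[X]) (p : Fin d → K[X]), q ≠ 0 ∧
      aeval t q * f = ∑ j, aeval t (p j) * y ^ (j : ℕ) := by
  have hli : LinearIndependent K⟮t⟯ (fun j : Fin d => y ^ (j : ℕ)) := by
    rw [Fintype.linearIndependent_iff]
    intro g hg
    obtain ⟨q, hq, hqs⟩ := exists_common_denom t Finset.univ g
    choose p hp using fun j => hqs j (Finset.mem_univ j)
    have hp0 : p = 0 := by
      apply localBasis_indep t y v b hb ht hy p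
      have : aeval t q * ∑ j, g j • y ^ (j : ℕ) = 0 := by rw [hg, mul_zero]
      rw [← this, Finset.mul_sum]
      refine Finset.sum_congr rfl fun j _ => ?_
      rw [← hp j, Algebra.smul_def, mul_assoc]
      rfl
    intro j
    have h1 := hp j
    rw [hp0] at h1
    simp only [Pi.zero_apply, map_zero, mul_eq_zero] at h1
    have h2 := h1.resolve_left hq
    exact_mod_cast h2
  have hspan : Submodule.span K⟮t⟯ (Set.range fun j : Fin d => y ^ (j : ℕ)) = ⊤ := by
    have : FiniteDimensional K⟮t⟯ F := IsFF1.finite t htr
    exact hli.span_eq_top_of_card_eq_finrank' (by simp [hd])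
  have hf : f ∈ Submodule.span K⟮t⟯ (Set.range fun j : Fin d => y ^ (j : ℕ)) := by
    rw [hspan]; trivial
  obtain ⟨g, hg⟩ := (Submodule.mem_span_range_iff_exists_fun K⟮t⟯).mp hf
  obtain ⟨q, hq, hqs⟩ := exists_common_denom t Finset.univ g
  choose p hp using fun j => hqs j (Finset.mem_univ j)
  refine ⟨q, p, fun h => hq (by rw [h, map_zero]), ?_⟩
  rw [← hg, Finset.mul_sum]
  refine Finset.sum_congr rfl fun j _ => ?_
  rw [← hp j, Algebra.smul_def, mul_assoc]
  rfl

theorem localBasis_repr {d : ℕ} (t y : F) (htr : Transcendental K t)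
    (hd : Module.finrank K⟮t⟯ F = d) (v : Fin d → Place K F) (b : Fin d → K)
    (hb : Function.Injective b) (ht : ∀ k, 0 < (v k).ord t) (hy : ∀ k, IsVal (v k) y (b k))
    (f : F) (hf : ∀ k, 0 ≤ (v k).ord f) :
    ∃ (q : K[X]) (p : Fin d → K[X]), q.eval 0 ≠ 0 ∧
      aeval t q * f = ∑ j, aeval t (p j) * y ^ (j : ℕ) := by
  have ht0 : t ≠ 0 := fun h => htr (h ▸ isAlgebraic_zero)
  have main : ∀ n : ℕ, ∀ (q : K[X]) (p : Fin d → K[X]), q ≠ 0 → q.natDegree ≤ n →
      aeval t q * f = ∑ j, aeval t (p j) * y ^ (j : ℕ) →
      ∃ (q : K[X]) (p : Fin d → K[X]), q.eval 0 ≠ 0 ∧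
        aeval t q * f = ∑ j, aeval t (p j) * y ^ (j : ℕ) := by
    intro n
    induction n with
    | zero =>
      intro q p hq hn h
      refine ⟨q, p, ?_, h⟩
      rw [eq_C_of_natDegree_le_zero hn] at hq ⊢
      simpa using hq
    | succ n ih =>
      intro q p hq hn h
      by_cases hq0 : q.eval 0 = 0
      · have hg : ∀ k, IsVal (v k) (aeval t q * f) 0 := by
          intro k
          have h1 := ((isVal_zero_of_ord_pos (ht k)).aeval q).mul (isVal_ev (hf k))
          rwa [hq0, zero_mul] at h1
        have h0 := localBasis_eval_zero t y v b hb ht hy p _ hg h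
        have hX : ∀ j, p j = X * (p j).divX := fun j => eq_X_mul_divX_of_eval_zero (h0 j)
        have hqX : q = X * q.divX := eq_X_mul_divX_of_eval_zero hq0
        have hq' : q.divX ≠ 0 := by
          intro h'
          rw [h', mul_zero] at hqX
          exact hq hqX
        apply ih q.divX (fun j => (p j).divX) hq'
        · rw [natDegree_divX_eq_natDegree_tsub_one]
          omega
        · have : t * (aeval t q.divX * f) = t * ∑ j, aeval t ((p j).divX) * y ^ (j : ℕ) := by
            rw [Finset.mul_sum]
            have e1 : t * (aeval t q.divX * f) = aeval t q * f := by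
              conv_rhs => rw [hqX]
              simp [mul_assoc]
            rw [e1, h]
            refine Finset.sum_congr rfl fun j _ => ?_
            conv_lhs => rw [hX j]
            simp [mul_assoc]
          exact mul_left_cancel₀ ht0 this
      · exact ⟨q, p, hq0, h⟩
  obtain ⟨q, p, hq, h⟩ := localBasis_gen t y htr hd v b hb ht hy f
  exact main _ q p hq le_rfl h

end Fermat.Agent.S27
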