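import Fermat.Agent.S27.SmoothPoint
import Fermat.Agent.S27.FibBasic

/-! # S27 / A4: all but finitely many fibres are reduced

Proof sketch: `F / K(x)` is finite separable, take a primitive element `y`; clearing denominators in
its minimal polynomial gives `P : K[X][Y]`, `P(x,y) = 0`, with `P_Y(x,y) ≠ 0` (smaller degree,
characteristic zero).  A place `w` where `x, y` are regular and `P_Y(x,y)` does not vanish is
unramified over `x` by `smoothPoint_ord`.  The remaining places are finite in number
(`finite_ord_ne_zero`). -/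

set_option autoImplicit false

noncomputable section

namespace Fermat.Agent.S27

open AlgebraicCurve Fermat.Agent.S24.FF Polynomial
open scoped Polynomial.Bivariate

namespace FibRam

variable {K F : Type*} [Field K] [Field F] [Algebra K F]

/-- `aevalAeval` as an `eval₂`. -/
theorem aevalAeval_eq_eval₂ (x y : F) (P : K[X][Y]) :
    aevalAeval x y P = P.eval₂ ((aeval x : K[X] →ₐ[K] F) : K[X] →+* F) y := by
  induction P using Polynomial.induction_on' with
  | add p q hp hq => rw [map_add, hp, hq, eval₂_add]
  | monomial n a =>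
    rw [← C_mul_X_pow_eq_monomial, map_mul, map_pow, aevalAeval_C, aevalAeval_Y, eval₂_mul,
      eval₂_C, eval₂_pow, eval₂_X]
    rfl

/-- The field of fractions `A(x,y)/B(x,y)`. -/
def gen2Field (K : Type*) {F : Type*} [Field K] [Field F] [Algebra K F] (x y : F) :
    IntermediateField K F where
  carrier := {f | ∃ A B : K[X][Y], aevalAeval x y B ≠ 0 ∧ f * aevalAeval x y B = aevalAeval x y A}
  mul_mem' := by
    rintro f g ⟨A, B, hB, h⟩ ⟨A', B', hB', h'⟩
    refine ⟨A * A', B * B', ?_, ?_⟩
    · rw [map_mul]; exact mul_ne_zero hB hB'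
    · rw [map_mul, map_mul, ← h, ← h']; ring
  add_mem' := by
    rintro f g ⟨A, B, hB, h⟩ ⟨A', B', hB', h'⟩
    refine ⟨A * B' + A' * B, B * B', ?_, ?_⟩
    · rw [map_mul]; exact mul_ne_zero hB hB'
    · rw [map_add, map_mul, map_mul, map_mul, ← h, ← h']; ring
  algebraMap_mem' := by
    intro c
    refine ⟨C (C c), 1, ?_, ?_⟩
    · rw [map_one]; exact one_ne_zero
    · rw [map_one, mul_one, aevalAeval_C, aeval_C]
  inv_mem' := by
    rintro f ⟨A, B, hB, h⟩
    rcases eq_or_ne f 0 with rfl | hf
    · refine ⟨0, 1, ?_, ?_⟩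
      · rw [map_one]; exact one_ne_zero
      · simp
    · refine ⟨B, A, ?_, ?_⟩
      · rw [← h]; exact mul_ne_zero hf hB
      · rw [← h, inv_mul_cancel_left₀ hf]

theorem gen2_of_adjoin_eq_top {x y : F}
    (h : IntermediateField.adjoin K ({x} ∪ {y} : Set F) = ⊤) : Gen2 K x y := by
  have hle : IntermediateField.adjoin K ({x} ∪ {y} : Set F) ≤ gen2Field K x y := by
    rw [IntermediateField.adjoin_le_iff]
    rintro z (hz | hz)
    · rw [Set.mem_singleton_iff] at hz
      subst hz
      refine ⟨C X, 1, ?_, ?_⟩
      · rw [map_one]; exact one_ne_zero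
      · rw [map_one, mul_one, aevalAeval_X]
    · rw [Set.mem_singleton_iff] at hz
      subst hz
      refine ⟨Y, 1, ?_, ?_⟩
      · rw [map_one]; exact one_ne_zero
      · rw [map_one, mul_one, aevalAeval_Y]
  intro f
  have : f ∈ gen2Field K x y := hle (h ▸ IntermediateField.mem_top)
  exact this

end FibRam

variable {K F : Type*} [Field K] [Field F] [Algebra K F] [IsAlgClosed K] [CharZero K] [IsFF1 K F]

open scoped IntermediateField.algebraAdjoinAdjoin in
/-- primitive element, in polynomial form -/
theorem exists_gen2 (x : F) (hx : Transcendental K x) :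
    ∃ (y : F) (P : K[X][Y]), Gen2 K x y ∧ aevalAeval x y P = 0 ∧
      aevalAeval x y (derivative P) ≠ 0 := by
  have : FiniteDimensional (IntermediateField.adjoin K {x}) F := IsFF1.finite x hx
  obtain ⟨y, hy⟩ := Field.exists_primitive_element (IntermediateField.adjoin K {x}) F
  have hgen : Gen2 K x y := by
    apply FibRam.gen2_of_adjoin_eq_top
    rw [← IntermediateField.adjoin_adjoin_left, hy]
    rfl
  have hsep : (minpoly (IntermediateField.adjoin K {x}) y).Separable :=
    Algebra.IsSeparable.isSeparable _ y
  obtain ⟨b, hbM, hb⟩ := IsLocalization.integerNormalization_spec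
    (nonZeroDivisors (Algebra.adjoin K ({x} : Set F))) (minpoly (IntermediateField.adjoin K {x}) y)
  have hb' : b • minpoly (IntermediateField.adjoin K {x}) y =
      C (algebraMap (Algebra.adjoin K ({x} : Set F)) (IntermediateField.adjoin K {x}) b) *
        minpoly (IntermediateField.adjoin K {x}) y := by
    rw [← algebraMap_smul (IntermediateField.adjoin K {x}), smul_eq_C_mul]
  rw [hb'] at hb
  have hb0 : algebraMap (Algebra.adjoin K ({x} : Set F)) (IntermediateField.adjoin K {x}) b ≠ 0 := by
    intro h0
    have := (IsFractionRing.injective (Algebra.adjoin K ({x} : Set F))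
      (IntermediateField.adjoin K {x})) (h0.trans (map_zero _).symm)
    exact nonZeroDivisors.ne_zero hbM this
  let x' : Algebra.adjoin K ({x} : Set F) := ⟨x, Algebra.subset_adjoin rfl⟩
  have hψ : Function.Surjective
      ((aeval x' : K[X] →ₐ[K] Algebra.adjoin K ({x} : Set F)) :
        K[X] →+* Algebra.adjoin K ({x} : Set F)) := by
    rintro ⟨a, ha⟩
    have ha' := ha
    rw [Algebra.adjoin_singleton_eq_range_aeval] at ha'
    obtain ⟨p, hp⟩ := ha'
    refine ⟨p, Subtype.ext ?_⟩
    exact (Polynomial.aeval_algebraMap_apply F x' p).symm.trans hp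
  obtain ⟨P, hP⟩ := Polynomial.map_surjective _ hψ
    (IsLocalization.integerNormalization (nonZeroDivisors (Algebra.adjoin K ({x} : Set F)))
      (minpoly (IntermediateField.adjoin K {x}) y))
  have key : ∀ Q : K[X][Y], aevalAeval x y Q = aeval y
      ((Q.map ((aeval x' : K[X] →ₐ[K] Algebra.adjoin K ({x} : Set F)) :
        K[X] →+* Algebra.adjoin K ({x} : Set F))).map
          (algebraMap (Algebra.adjoin K ({x} : Set F)) (IntermediateField.adjoin K {x}))) := by
    intro Q
    rw [FibRam.aevalAeval_eq_eval₂, aeval_def, eval₂_map, eval₂_map]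
    congr 1
    ext p
    · simp
    · simp
      rfl
  refine ⟨y, P, hgen, ?_, ?_⟩
  · rw [key, hP, hb, map_mul, minpoly.aeval, mul_zero]
  · rw [key, ← derivative_map, ← derivative_map, hP, hb, derivative_mul, derivative_C, zero_mul,
      zero_add, map_mul, aeval_C]
    refine mul_ne_zero ?_ (hsep.aeval_derivative_ne_zero (minpoly.aeval _ y))
    rw [Ne, map_eq_zero_iff _ (algebraMap (IntermediateField.adjoin K {x}) F).injective]
    exact hb0

/-- A4. All but finitely many places are unramified over `x`. -/
theorem finite_ramified_places (x : F) (hx : Transcendental K x) :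
    {v : Place K F | ∃ a : K, 1 < v.ord (x - algebraMap K F a)}.Finite := by
  obtain ⟨y, P, hgen, hP, hP'⟩ := exists_gen2 x hx
  apply (((finite_ord_ne_zero (K := K) y).union
    (finite_ord_ne_zero (K := K) (aevalAeval x y (derivative P))))).subset
  rintro v ⟨a, ha⟩
  by_contra hv
  rw [Set.mem_union, not_or] at hv
  obtain ⟨h1, h2⟩ := hv
  have h1 : v.ord y = 0 := by simpa using h1
  have h2 : v.ord (aevalAeval x y (derivative P)) = 0 := by simpa using h2
  have hxa : IsVal v x a := Or.inr (by omega)
  have hyb : IsVal v y (ev v y) := isVal_ev (by omega)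
  have hg := IsVal.aevalAeval hxa hyb (derivative P)
  have hsm : evalEval a (ev v y) (derivative P) ≠ 0 := by
    intro h0
    rw [h0, isVal_zero_iff] at hg
    rcases hg with hg | hg
    · exact hP' hg
    · omega
  have := smoothPoint_ord hgen hP hxa hyb hsm
  omega

/-- A4'. All but finitely many fibres of `x` are reduced. -/
theorem finite_ramified_values (x : F) (hx : Transcendental K x) :
    {a : K | ∃ v : Place K F, 1 < v.ord (x - algebraMap K F a)}.Finite := by
  apply ((finite_ramified_places x hx).image (fun v => ev v x)).subset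
  rintro a ⟨v, hv⟩
  exact ⟨v, ⟨a, hv⟩, ev_eq_of_ord_sub_pos (by omega)⟩

end Fermat.Agent.S27
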