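import Mathlib

/-!
# S27, part H: automorphisms of an algebraically closed field over a subfield

* `exists_algEquiv_add` : if `a : K'` is transcendental over `K` and `K'` is algebraically closed,
  then for each `c : K` there is a `K`-automorphism of `K'` sending `a` to `a + c`.
* `isAlgebraic_of_finite_orbit` : (char. 0) an element with finite orbit under a finite index
  subgroup of `Aut(K'/K)` is algebraic over `K`.
* `mem_range_of_fixed` : if moreover `K` is algebraically closed, it lies in `K`.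
-/

namespace Fermat.Agent.S27.AutFixed

open MvPolynomial

variable {K K' : Type*} [Field K] [Field K'] [Algebra K K']

/-- the shift automorphism `X i₀ ↦ X i₀ + c` of a polynomial ring. -/
noncomputable def shiftHom {ι : Type*} [DecidableEq ι] (i₀ : ι) (c : K) :
    MvPolynomial ι K →ₐ[K] MvPolynomial ι K :=
  aeval fun i => if i = i₀ then X i + C c else X i

theorem shiftHom_X {ι : Type*} [DecidableEq ι] (i₀ : ι) (c : K) (i : ι) :
    shiftHom i₀ c (X i) = if i = i₀ then X i + C c else X i := by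
  simp [shiftHom]

theorem shiftHom_comp {ι : Type*} [DecidableEq ι] (i₀ : ι) (c : K) :
    (shiftHom i₀ c).comp (shiftHom i₀ (-c)) = AlgHom.id K (MvPolynomial ι K) := by
  ext i
  rw [AlgHom.comp_apply, shiftHom_X]
  split_ifs with h
  · rw [map_add, shiftHom_X, if_pos h, ← algebraMap_eq, AlgHom.commutes, algebraMap_eq]
    simp
  · rw [shiftHom_X, if_neg h]; rfl

/-- the shift automorphism as an equivalence. -/
noncomputable def shiftEquiv {ι : Type*} [DecidableEq ι] (i₀ : ι) (c : K) :
    MvPolynomial ι K ≃ₐ[K] MvPolynomial ι K :=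
  AlgEquiv.ofAlgHom (shiftHom i₀ c) (shiftHom i₀ (-c)) (shiftHom_comp i₀ c)
    (by simpa using shiftHom_comp i₀ (-c))

theorem exists_algEquiv_add [IsAlgClosed K'] (a : K') (ha : Transcendental K a) (c : K) :
    ∃ σ : K' ≃ₐ[K] K', σ a = a + algebraMap K K' c := by
  classical
  have hind : AlgebraicIndepOn K id ({a} : Set K') :=
    algebraicIndependent_unique_type_iff.mpr ha
  obtain ⟨t, hat, ht⟩ := exists_isTranscendenceBasis_superset hind
  have hat' : a ∈ t := hat (Set.mem_singleton a)
  let i₀ : t := ⟨a, hat'⟩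
  let R := Algebra.adjoin K (Set.range ((↑) : t → K'))
  let _ : IsAlgClosure R K' := IsAlgClosed.isAlgClosure_of_transcendence_basis _ ht
  let e : R ≃ₐ[K] R := (ht.1.aevalEquiv.symm.trans (shiftEquiv i₀ c)).trans ht.1.aevalEquiv
  let σ0 : K' ≃+* K' := IsAlgClosure.equivOfEquiv K' K' e.toRingEquiv
  have hσ0 : ∀ r : R, σ0 (algebraMap R K' r) = algebraMap R K' (e r) := fun r =>
    IsAlgClosure.equivOfEquiv_algebraMap K' K' e.toRingEquiv r
  let σ : K' ≃ₐ[K] K' := AlgEquiv.ofRingEquiv (f := σ0) (by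
    intro x
    have h1 : algebraMap K K' x = algebraMap R K' (algebraMap K R x) := rfl
    rw [h1, hσ0, AlgEquiv.commutes])
  refine ⟨σ, ?_⟩
  have h2 : a = algebraMap R K' (ht.1.aevalEquiv (X i₀)) := by
    rw [AlgebraicIndependent.algebraMap_aevalEquiv, aeval_X]
  change σ0 a = _
  conv_lhs => rw [h2]
  rw [hσ0]
  change algebraMap R K' (ht.1.aevalEquiv (shiftEquiv i₀ c (ht.1.aevalEquiv.symm
    (ht.1.aevalEquiv (X i₀))))) = _
  rw [AlgEquiv.symm_apply_apply]
  change algebraMap R K' (ht.1.aevalEquiv (shiftHom i₀ c (X i₀))) = _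
  rw [shiftHom_X, if_pos rfl, AlgebraicIndependent.algebraMap_aevalEquiv, map_add, aeval_X,
    aeval_C]

/-- an element whose orbit under a finite index subgroup of `Aut(K'/K)` is finite is algebraic. -/
theorem isAlgebraic_of_finite_orbit [CharZero K] [IsAlgClosed K'] (Γ : Subgroup (K' ≃ₐ[K] K'))
    [Γ.FiniteIndex] (a : K') (hfin : Set.Finite {b : K' | ∃ σ ∈ Γ, σ a = b}) :
    IsAlgebraic K a := by
  classical
  by_contra htr
  have htr' : Transcendental K a := htr
  choose τ hτ using fun n : ℕ => exists_algEquiv_add a htr' (n : K)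
  -- pigeonhole on cosets of `Γ`, then on the orbit
  -- the full orbit is finite
  have hfull : Set.Finite {b : K' | ∃ σ : K' ≃ₐ[K] K', σ a = b} := by
    have hq : Finite ((K' ≃ₐ[K] K') ⧸ Γ) := Subgroup.finite_quotient_of_finiteIndex
    have : {b : K' | ∃ σ : K' ≃ₐ[K] K', σ a = b} ⊆
        ⋃ q : (K' ≃ₐ[K] K') ⧸ Γ, (fun b => (Quotient.out q : K' ≃ₐ[K] K') b) ''
          {b : K' | ∃ σ ∈ Γ, σ a = b} := by
      rintro b ⟨σ, rfl⟩
      refine Set.mem_iUnion.2 ⟨QuotientGroup.mk σ, ?_⟩
      set ρ : K' ≃ₐ[K] K' := Quotient.out (QuotientGroup.mk σ : (K' ≃ₐ[K] K') ⧸ Γ) with hρ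
      have hmem : ρ⁻¹ * σ ∈ Γ := by
        rw [← QuotientGroup.eq]
        exact QuotientGroup.out_eq' _
      refine ⟨(ρ⁻¹ * σ) a, ⟨ρ⁻¹ * σ, hmem, rfl⟩, ?_⟩
      change ρ ((ρ⁻¹ * σ) a) = σ a
      rw [← AlgEquiv.mul_apply, mul_inv_cancel_left]
    exact (Set.finite_iUnion fun q => hfin.image _).subset this
  have hinj : Function.Injective fun n : ℕ => a + algebraMap K K' (n : K) := by
    intro m n h
    have h1 : algebraMap K K' (m : K) = algebraMap K K' (n : K) := add_left_cancel h
    exact_mod_cast (algebraMap K K').injective h1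
  have hsub : Set.range (fun n : ℕ => a + algebraMap K K' (n : K)) ⊆
      {b : K' | ∃ σ : K' ≃ₐ[K] K', σ a = b} := by
    rintro _ ⟨n, rfl⟩
    exact ⟨τ n, hτ n⟩
  exact (Set.infinite_range_of_injective hinj) (hfull.subset hsub)

/-- an element fixed by a finite index subgroup of `Aut(K'/K)`, `K` algebraically closed of
characteristic zero, lies in `K`. -/
theorem mem_range_of_finite_orbit [CharZero K] [IsAlgClosed K] [IsAlgClosed K']
    (Γ : Subgroup (K' ≃ₐ[K] K')) [Γ.FiniteIndex] (a : K')
    (hfin : Set.Finite {b : K' | ∃ σ ∈ Γ, σ a = b}) :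
    a ∈ Set.range (algebraMap K K') := by
  have halg : IsAlgebraic K a := isAlgebraic_of_finite_orbit Γ a hfin
  have hint : IsIntegral K a := halg.isIntegral
  have hdeg : (minpoly K a).degree = 1 :=
    IsAlgClosed.degree_eq_one_of_irreducible K (minpoly.irreducible hint)
  exact minpoly.mem_range_of_degree_eq_one K a hdeg

/-- the special case of a fixed element. -/
theorem mem_range_of_fixed [CharZero K] [IsAlgClosed K] [IsAlgClosed K']
    (Γ : Subgroup (K' ≃ₐ[K] K')) [Γ.FiniteIndex] (a : K') (hfix : ∀ σ ∈ Γ, σ a = a) :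
    a ∈ Set.range (algebraMap K K') := by
  refine mem_range_of_finite_orbit Γ a ((Set.finite_singleton a).subset ?_)
  rintro b ⟨σ, hσ, rfl⟩
  exact hfix σ hσ

end Fermat.Agent.S27.AutFixed
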