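import Fermat.Agent.S27.Defs

/-! # S27 / A0: the hypotheses of S27 give a function field in one variable -/

set_option autoImplicit false
set_option linter.style.haveILetI false

noncomputable section

namespace Fermat.Agent.S27

open AlgebraicCurve Fermat.Agent.S24.FF
open scoped TensorProduct KaehlerDifferential IntermediateField

/-- In characteristic zero the dimension of the module of differentials of a field extension is
the cardinality of any transcendence basis (with the `Nat.card` convention). -/
theorem finrank_kaehler_eq_natCard_of_isTranscendenceBasis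
    (K F : Type*) [Field K] [Field F] [Algebra K F] [CharZero K]
    {ι : Type*} (x : ι → F) (hx : IsTranscendenceBasis K x) :
    Module.finrank F Ω[F⁄K] = Nat.card ι := by
  letI : Algebra (MvPolynomial ι K) F := (MvPolynomial.aeval x).toAlgebra
  have hmap : ∀ p : MvPolynomial ι K, algebraMap (MvPolynomial ι K) F p = MvPolynomial.aeval x p :=
    fun _ => rfl
  haveI : IsScalarTower K (MvPolynomial ι K) F :=
    IsScalarTower.of_algebraMap_eq (fun c => by
      rw [hmap, MvPolynomial.algebraMap_eq, MvPolynomial.aeval_C])
  have hinj : Function.Injective (algebraMap (MvPolynomial ι K) F) := hx.1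
  haveI : FaithfulSMul (MvPolynomial ι K) F :=
    (faithfulSMul_iff_algebraMap_injective _ _).mpr hinj
  haveI halg0 : Algebra.IsAlgebraic (Algebra.adjoin K (Set.range x)) F := hx.isAlgebraic
  haveI halg : Algebra.IsAlgebraic (MvPolynomial ι K) F := by
    refine Algebra.IsAlgebraic.of_ringHom_of_comp_eq
      (S := Algebra.adjoin K (Set.range x)) (B := F)
      (hx.1.aevalEquiv : MvPolynomial ι K ≃ₐ[K] _) (RingHom.id F)
      (EquivLike.surjective _) Function.injective_id ?_
    refine RingHom.ext fun p => ?_
    simp only [RingHom.comp_apply, RingHom.coe_coe, hmap, RingHom.id_apply]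
    exact hx.1.algebraMap_aevalEquiv p
  letI : Algebra (FractionRing (MvPolynomial ι K)) F := FractionRing.liftAlgebra _ F
  haveI : IsScalarTower (MvPolynomial ι K) (FractionRing (MvPolynomial ι K)) F :=
    FractionRing.isScalarTower_liftAlgebra _ F
  haveI : Algebra.IsAlgebraic (FractionRing (MvPolynomial ι K)) F :=
    Algebra.IsAlgebraic.extendScalars (R := MvPolynomial ι K)
      (IsFractionRing.injective (MvPolynomial ι K) (FractionRing (MvPolynomial ι K)))
  haveI : CharZero (FractionRing (MvPolynomial ι K)) :=
    charZero_of_injective_algebraMap (algebraMap K (FractionRing (MvPolynomial ι K))).injective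
  haveI : Algebra.IsSeparable (FractionRing (MvPolynomial ι K)) F :=
    Algebra.IsAlgebraic.isSeparable_of_perfectField
  haveI : Algebra.FormallyEtale (FractionRing (MvPolynomial ι K)) F :=
    Algebra.FormallyEtale.of_isSeparable _ _
  haveI : Algebra.FormallyEtale (MvPolynomial ι K) (FractionRing (MvPolynomial ι K)) :=
    Algebra.FormallyEtale.of_isLocalization (nonZeroDivisors (MvPolynomial ι K))
  haveI : Algebra.FormallyEtale (MvPolynomial ι K) F :=
    Algebra.FormallyEtale.comp _ (FractionRing (MvPolynomial ι K)) _
  have e := KaehlerDifferential.tensorKaehlerEquivOfFormallyEtale K (MvPolynomial ι K) F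
  have b := ((KaehlerDifferential.mvPolynomialBasis K ι).baseChange F).map e
  exact Module.finrank_eq_nat_card_basis b

theorem isFF1_of_isCurveOver (K F : Type*) [Field K] [Field F] [Algebra K F] [IsAlgClosed K]
    [CharZero K] [IsCurveOver K F] [Algebra.EssFiniteType K F] : IsFF1 K F ∧ NonConst K F := by
  obtain ⟨ι, x, hx⟩ := exists_isTranscendenceBasis' K F
  have h1 : Nat.card ι = 1 := by
    rw [← finrank_kaehler_eq_natCard_of_isTranscendenceBasis K F x hx]
    exact IsCurveOver.finrank_kaehler
  obtain ⟨i, hi⟩ := Nat.card_eq_one_iff_exists.mp h1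
  have hr : Set.range x = {x i} := by
    ext z
    constructor
    · rintro ⟨j, rfl⟩
      rw [hi j]
      rfl
    · rintro rfl
      exact ⟨i, rfl⟩
  have halg := hx.isAlgebraic_field
  rw [hr] at halg
  haveI : Algebra.EssFiniteType K⟮x i⟯ F := Algebra.EssFiniteType.of_comp K K⟮x i⟯ F
  haveI : FiniteDimensional K⟮x i⟯ F := Algebra.finite_of_essFiniteType_of_isAlgebraic
  exact ⟨IsFF1.of_exists (x i), ⟨⟨x i, hx.1.transcendental i⟩⟩⟩

end Fermat.Agent.S27
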