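import Mathlib
import Fermat.Prelude.Def_AlgebraicCurve_IsCurveOver
import Fermat.Agent.S24.Diff.Kaehler

/-!
# S27, part A0: the hypotheses of S27 give a function field in one variable (`IsFF1`)
Owner: helper84.
-/

set_option autoImplicit false

noncomputable section

namespace Fermat.Agent.S27

open AlgebraicCurve IntermediateField Polynomial KaehlerDifferential TensorProduct
open Fermat.Agent.S24.FF Fermat.Agent.S24.Diff
open scoped IntermediateField.algebraAdjoinAdjoin

variable {K F : Type*} [Field K] [Field F] [Algebra K F]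

theorem formallySmooth_adjoin [CharZero K] [Algebra.EssFiniteType K F] (x : F) :
    Algebra.FormallySmooth (Algebra.adjoin K {x}) F := by
  have : CharZero K⟮x⟯ := charZero_of_injective_algebraMap (algebraMap K K⟮x⟯).injective
  have h1 : Algebra.FormallyEtale (Algebra.adjoin K {x}) K⟮x⟯ :=
    Algebra.FormallyEtale.of_isLocalization (nonZeroDivisors (Algebra.adjoin K {x}))
  have h0 : Algebra.EssFiniteType K⟮x⟯ F := Algebra.EssFiniteType.of_comp K K⟮x⟯ F
  have h2 : Algebra.FormallySmooth K⟮x⟯ F := inferInstance
  exact Algebra.FormallySmooth.comp (Algebra.adjoin K {x}) K⟮x⟯ F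

theorem D_ne_zero_of_essFiniteType [CharZero K] [Algebra.EssFiniteType K F] (x : F)
    (hx : Transcendental K x) : D K F x ≠ 0 := by
  intro h0
  have := formallySmooth_adjoin (K := K) x
  have hinj : Function.Injective (mapBaseChange K (Algebra.adjoin K {x}) F) := by
    rw [injective_iff_map_eq_zero]
    intro z hz
    obtain ⟨z, rfl⟩ := (Algebra.H1Cotangent.exact_δ_mapBaseChange K (Algebra.adjoin K {x}) F z).mp hz
    rw [Subsingleton.elim z 0, map_zero]
  have h1 : mapBaseChange K (Algebra.adjoin K {x}) F
      (1 ⊗ₜ D K (Algebra.adjoin K {x}) (gen x)) = 0 := by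
    rw [mapBaseChange_tmul, one_smul, map_D]
    exact h0
  have h2 := hinj (h1.trans (map_zero _).symm)
  have h3 := congrArg (LinearMap.baseChange F (ddx x hx).liftKaehlerDifferential) h2
  rw [map_zero, LinearMap.baseChange_tmul, Derivation.liftKaehlerDifferential_comp_D,
    ddx_gen] at h3
  have h4 := congrArg (TensorProduct.rid (Algebra.adjoin K {x}) F) h3
  simp at h4

theorem finiteDimensional_adjoin_of_finrank_kaehler [CharZero K] [Algebra.EssFiniteType K F]
    (h1 : Module.finrank F Ω[F⁄K] = 1) (x : F) (hx : Transcendental K x) :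
    FiniteDimensional K⟮x⟯ F := by
  have hD := D_ne_zero_of_essFiniteType x hx
  have h0 : Algebra.EssFiniteType K⟮x⟯ F := Algebra.EssFiniteType.of_comp K K⟮x⟯ F
  have hsub : Subsingleton Ω[F⁄K⟮x⟯] := by
    refine ⟨fun a b => ?_⟩
    have key : ∀ a : Ω[F⁄K⟮x⟯], a = 0 := by
      intro a
      obtain ⟨ω, rfl⟩ := KaehlerDifferential.map_surjective K K⟮x⟯ F a
      obtain ⟨f, rfl⟩ := (finrank_eq_one_iff_of_nonzero' _ hD).mp h1 ω
      rw [map_smul, KaehlerDifferential.map_D]
      have : (algebraMap F F) x = algebraMap K⟮x⟯ F (AdjoinSimple.gen K x) := rfl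
      rw [this, Derivation.map_algebraMap, smul_zero]
    rw [key a, key b]
  have hu : Algebra.FormallyUnramified K⟮x⟯ F := ⟨hsub⟩
  have hs : Algebra.IsSeparable K⟮x⟯ F := Algebra.FormallyUnramified.isSeparable K⟮x⟯ F
  exact Algebra.finite_of_essFiniteType_of_isAlgebraic

theorem isFF1_of_isCurveOver [CharZero K] [IsCurveOver K F] [Algebra.EssFiniteType K F] :
    IsFF1 K F :=
  ⟨fun x hx => finiteDimensional_adjoin_of_finrank_kaehler IsCurveOver.finrank_kaehler x hx⟩

/-- there is a transcendental element. -/
theorem exists_transcendental_of_isCurveOver [CharZero K] [IsCurveOver K F] :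
    ∃ x : F, Transcendental K x := by
  by_contra hcon
  push Not at hcon
  have halg : Algebra.IsAlgebraic K F := ⟨fun x => by
    have := hcon x
    rwa [Transcendental, not_not] at this⟩
  have hs : Algebra.IsSeparable K F := inferInstance
  have hu : Algebra.FormallyUnramified K F := Algebra.FormallyUnramified.of_isSeparable K F
  have h1 : Module.finrank F Ω[F⁄K] = 1 := IsCurveOver.finrank_kaehler
  have h2 : Module.finrank F Ω[F⁄K] = 0 := Module.finrank_zero_of_subsingleton
  omega

end Fermat.Agent.S27
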