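import Fermat.Agent.S27.Ev

/-! # S27 / W1: local components of Weil differentials; reciprocity ("residue theorem")

`WDiff K F = Dual (H1 0)`, `lam.loc v f = lam (class of the repartition f at v, 0 elsewhere)`.
All statements here are formal consequences of the definitions of `repartitions`,
`repartitionsOf 0`, `principalRepartitions` and of `finite_ord_ne_zero` (S24/FFDeg).
-/

set_option autoImplicit false
set_option linter.unusedSectionVars false

noncomputable section

namespace Fermat.Agent.S27

open AlgebraicCurve Fermat.Agent.S24.FF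

variable {K F : Type*} [Field K] [Field F] [Algebra K F]

/-- `lam` vanishes at `v` (as a differential). -/
def WDiff.VanishAt (lam : WDiff K F) (v : Place K F) : Prop :=
  ∀ f : F, -1 ≤ v.ord f → lam.loc v f = 0

/-- `v_1, .., v_n` are distinct and no nonzero regular differential vanishes at all of them. -/
def NonSpecial {n : ℕ} (v : Fin n → Place K F) : Prop :=
  Function.Injective v ∧ ∀ lam : WDiff K F, (∀ i, lam.VanishAt (v i)) → lam = 0

theorem singleRep_add (v : Place K F) (f g : F) :
    singleRep v (f + g) = singleRep v f + singleRep v g := by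
  classical
  apply Subtype.ext
  change (Pi.single v (f + g) : Place K F → F) = Pi.single v f + Pi.single v g
  exact Pi.single_add (f := fun _ : Place K F => F) v f g

theorem singleRep_smul (v : Place K F) (c : K) (f : F) :
    singleRep v (algebraMap K F c * f) = c • singleRep v f := by
  classical
  apply Subtype.ext
  funext w
  change (Pi.single v (algebraMap K F c * f) : Place K F → F) w
    = c • (Pi.single v f : Place K F → F) w
  by_cases h : w = v
  · subst h
    rw [Pi.single_eq_same, Pi.single_eq_same, Algebra.smul_def]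
  · rw [Pi.single_eq_of_ne h, Pi.single_eq_of_ne h, smul_zero]

theorem h1mk_add (α β : ↥(repartitions K F)) : h1mk (α + β) = h1mk α + h1mk β := rfl

theorem h1mk_smul (c : K) (α : ↥(repartitions K F)) : h1mk (c • α) = c • h1mk α := rfl

theorem h1mk_eq_zero_iff (α : ↥(repartitions K F)) :
    h1mk α = 0 ↔ α ∈ repartitionsOf (0 : Divisor K F) ⊔ principalRepartitions K F :=
  Submodule.Quotient.mk_eq_zero _

theorem h1mk_surjective : Function.Surjective (h1mk (K := K) (F := F)) :=
  Submodule.Quotient.mk_surjective _

/-- `h1mk` as a linear map. -/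
def h1mkₗ : ↥(repartitions K F) →ₗ[K] H1 (0 : Divisor K F) :=
  Submodule.mkQ _

theorem h1mkₗ_apply (α : ↥(repartitions K F)) :
    (h1mkₗ : ↥(repartitions K F) →ₗ[K] H1 (0 : Divisor K F)) α = h1mk α := rfl

theorem WDiff.loc_add (lam : WDiff K F) (v : Place K F) (f g : F) :
    lam.loc v (f + g) = lam.loc v f + lam.loc v g := by
  unfold WDiff.loc
  rw [singleRep_add, h1mk_add, map_add]

theorem WDiff.loc_const_mul (lam : WDiff K F) (v : Place K F) (c : K) (f : F) :
    lam.loc v (algebraMap K F c * f) = c * lam.loc v f := by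
  unfold WDiff.loc
  rw [singleRep_smul, h1mk_smul, map_smul, smul_eq_mul]

theorem WDiff.loc_zero (lam : WDiff K F) (v : Place K F) : lam.loc v 0 = 0 := by
  have h := lam.loc_const_mul v 0 0
  simpa using h

theorem WDiff.loc_neg (lam : WDiff K F) (v : Place K F) (f : F) :
    lam.loc v (-f) = -lam.loc v f := by
  have h := lam.loc_add v f (-f)
  rw [add_neg_cancel, lam.loc_zero] at h
  exact (neg_eq_of_add_eq_zero_right h.symm).symm

theorem WDiff.loc_sub (lam : WDiff K F) (v : Place K F) (f g : F) :
    lam.loc v (f - g) = lam.loc v f - lam.loc v g := by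
  rw [sub_eq_add_neg, lam.loc_add, lam.loc_neg, sub_eq_add_neg]

theorem WDiff.loc_sum {ι : Type*} (lam : WDiff K F) (v : Place K F) (s : Finset ι) (f : ι → F) :
    lam.loc v (∑ i ∈ s, f i) = ∑ i ∈ s, lam.loc v (f i) := by
  classical
  induction s using Finset.induction_on with
  | empty => simpa using lam.loc_zero v
  | insert a s ha ih => rw [Finset.sum_insert ha, Finset.sum_insert ha, lam.loc_add, ih]

theorem WDiff.add_loc (lam mu : WDiff K F) (v : Place K F) (f : F) :
    (lam + mu).loc v f = lam.loc v f + mu.loc v f := rfl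

theorem WDiff.smul_loc (c : K) (lam : WDiff K F) (v : Place K F) (f : F) :
    (c • lam).loc v f = c * lam.loc v f := rfl

theorem singleRep_mem_repartitionsOf_zero {v : Place K F} {f : F} (h : 0 ≤ v.ord f) :
    singleRep v f ∈ repartitionsOf (0 : Divisor K F) := by
  classical
  rw [mem_repartitionsOf_iff]
  intro w
  change (Pi.single v f : Place K F → F) w = 0 ∨ _ ≤ w.ord ((Pi.single v f : Place K F → F) w)
  by_cases hw : w = v
  · subst hw
    right
    rw [Pi.single_eq_same]
    simpa using h
  · left
    exact Pi.single_eq_of_ne hw _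

theorem WDiff.loc_eq_zero_of_ord_nonneg (lam : WDiff K F) {v : Place K F} {f : F}
    (h : 0 ≤ v.ord f) : lam.loc v f = 0 := by
  unfold WDiff.loc
  rw [(h1mk_eq_zero_iff _).2 (Submodule.mem_sup_left (singleRep_mem_repartitionsOf_zero h)),
    map_zero]

theorem WDiff.loc_congr (lam : WDiff K F) {v : Place K F} {f g : F}
    (h : 0 ≤ v.ord (f - g)) : lam.loc v f = lam.loc v g := by
  have h1 := lam.loc_eq_zero_of_ord_nonneg h
  rw [lam.loc_sub] at h1
  exact sub_eq_zero.1 h1

section
variable [IsAlgClosed K] [CharZero K] [IsFF1 K F]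

/-- a function `Place → F` is a repartition iff it has finitely many poles -/
theorem mem_repartitions_iff (α : Place K F → F) :
    α ∈ repartitions K F ↔ {v : Place K F | v.ord (α v) < 0}.Finite := by
  constructor
  · intro h
    unfold repartitions at h
    induction h using Algebra.adjoin_induction with
    | mem x hx =>
      have hx : {v : Place K F | ¬v.adicValuation (x v) ≤ 1}.Finite := hx
      rwa [show {v : Place K F | ¬v.adicValuation (x v) ≤ 1}
        = {v : Place K F | v.ord (x v) < 0} from
        Set.ext fun v => v.not_adicValuation_le_one_iff] at hx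
    | algebraMap r =>
      refine (finite_ord_ne_zero (K := K) r).subset ?_
      intro v hv
      have hv' : v.ord r < 0 := hv
      exact hv'.ne
    | add x y _ _ hx hy =>
      refine (hx.union hy).subset ?_
      intro v hv
      have hv' : v.ord (x v + y v) < 0 := hv
      by_contra hcon
      rw [Set.mem_union, not_or] at hcon
      have h1 : 0 ≤ v.ord (x v) := not_lt.1 hcon.1
      have h2 : 0 ≤ v.ord (y v) := not_lt.1 hcon.2
      have h3 : x v + y v ∈ v.toValuationSubring :=
        add_mem (mem_of_ord_nonneg v h1) (mem_of_ord_nonneg v h2)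
      exact absurd (ord_nonneg_of_mem v h3) (not_le.2 hv')
    | mul x y _ _ hx hy =>
      refine (hx.union hy).subset ?_
      intro v hv
      have hv' : v.ord (x v * y v) < 0 := hv
      by_contra hcon
      rw [Set.mem_union, not_or] at hcon
      have h1 : 0 ≤ v.ord (x v) := not_lt.1 hcon.1
      have h2 : 0 ≤ v.ord (y v) := not_lt.1 hcon.2
      have h3 : x v * y v ∈ v.toValuationSubring :=
        mul_mem (mem_of_ord_nonneg v h1) (mem_of_ord_nonneg v h2)
      exact absurd (ord_nonneg_of_mem v h3) (not_le.2 hv')
  · exact mem_repartitions_of_finite_ord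

open Classical in
omit [IsAlgClosed K] [CharZero K] [IsFF1 K F] in
theorem coe_sum_singleRep (s : Finset (Place K F)) (g : Place K F → F) (w : Place K F) :
    ((∑ v ∈ s, singleRep v (g v) : ↥(repartitions K F)) : Place K F → F) w
      = if w ∈ s then g w else 0 := by
  induction s using Finset.induction_on with
  | empty => simp
  | insert a s ha ih =>
    rw [Finset.sum_insert ha]
    change (Pi.single a (g a) : Place K F → F) w
      + ((∑ v ∈ s, singleRep v (g v) : ↥(repartitions K F)) : Place K F → F) w = _
    rw [ih]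
    by_cases hwa : w = a
    · subst hwa
      rw [Pi.single_eq_same, if_neg ha, if_pos (Finset.mem_insert_self _ _), add_zero]
    · rw [Pi.single_eq_of_ne hwa, zero_add]
      simp [Finset.mem_insert, hwa]

/-- every class in `H1 0` is a finite sum of local classes -/
theorem h1mk_eq_sum (α : ↥(repartitions K F)) (s : Finset (Place K F))
    (hs : ∀ v, v ∉ s → 0 ≤ v.ord ((α : Place K F → F) v)) :
    h1mk α = ∑ v ∈ s, h1mk (singleRep v ((α : Place K F → F) v)) := by
  classical
  have h1 : ∑ v ∈ s, h1mk (singleRep v ((α : Place K F → F) v))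
      = h1mk (∑ v ∈ s, singleRep v ((α : Place K F → F) v)) := by
    rw [← h1mkₗ_apply, map_sum]
    rfl
  rw [h1, ← sub_eq_zero]
  change h1mk (α - ∑ v ∈ s, singleRep v ((α : Place K F → F) v)) = 0
  rw [h1mk_eq_zero_iff]
  apply Submodule.mem_sup_left
  rw [mem_repartitionsOf_iff]
  intro w
  change (α : Place K F → F) w
      - ((∑ v ∈ s, singleRep v ((α : Place K F → F) v) : ↥(repartitions K F)) : Place K F → F) w = 0
    ∨ _ ≤ w.ord ((α : Place K F → F) w
      - ((∑ v ∈ s, singleRep v ((α : Place K F → F) v) : ↥(repartitions K F)) : Place K F → F) w)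
  rw [coe_sum_singleRep]
  by_cases hw : w ∈ s
  · left
    rw [if_pos hw, sub_self]
  · right
    rw [if_neg hw, sub_zero]
    simpa using hs w hw

/-- **Reciprocity** (the residue theorem). -/
theorem WDiff.sum_loc_eq_zero (lam : WDiff K F) (f : F) (s : Finset (Place K F))
    (hs : ∀ v, v ∉ s → 0 ≤ v.ord f) : ∑ v ∈ s, lam.loc v f = 0 := by
  have h := h1mk_eq_sum (algebraMap F ↥(repartitions K F) f) s hs
  have h0 : h1mk (algebraMap F ↥(repartitions K F) f) = 0 := by
    rw [h1mk_eq_zero_iff]
    apply Submodule.mem_sup_right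
    rw [mem_principalRepartitions_iff]
    exact ⟨f, rfl⟩
  rw [h0] at h
  have h2 := congrArg lam h
  rw [map_zero, map_sum] at h2
  exact h2.symm

/-- a Weil differential is determined by its local components -/
theorem WDiff.eq_zero_of_loc (lam : WDiff K F) (h : ∀ (v : Place K F) (f : F), lam.loc v f = 0) :
    lam = 0 := by
  apply LinearMap.ext
  intro x
  obtain ⟨α, rfl⟩ := h1mk_surjective x
  have hfin := (mem_repartitions_iff (α : Place K F → F)).1 α.2
  rw [h1mk_eq_sum α hfin.toFinset (fun v hv => by
    rw [Set.Finite.mem_toFinset] at hv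
    exact not_lt.1 hv), map_sum]
  exact Finset.sum_eq_zero fun v _ => h v _

/-- local component at a simple pole -/
theorem WDiff.loc_simple_pole (lam : WDiff K F) {v : Place K F} {t f : F} (ht : v.ord t = 1)
    (hf : -1 ≤ v.ord f) : lam.loc v f = ev v (f * t) * lam.loc v t⁻¹ := by
  have ht0 : t ≠ 0 := ne_zero_of_ord_ne_zero v (by rw [ht]; exact one_ne_zero)
  rcases eq_or_ne f 0 with rfl | hf0
  · rw [lam.loc_zero, zero_mul]
    have : ev v (0 : F) = 0 := by simpa using ev_algebraMap v (0 : K)
    rw [this, zero_mul]
  have hft : 0 ≤ v.ord (f * t) := by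
    rw [v.ord_mul hf0 ht0, ht]; omega
  rw [← lam.loc_const_mul]
  apply lam.loc_congr
  have hval := isVal_ev hft
  have heq : f - algebraMap K F (ev v (f * t)) * t⁻¹
      = (f * t - algebraMap K F (ev v (f * t))) * t⁻¹ := by
    field_simp
  rw [heq]
  rcases hval with h | h
  · rw [← h, sub_self, zero_mul, v.ord_zero]
  · have hne : f * t - algebraMap K F (ev v (f * t)) ≠ 0 :=
      ne_zero_of_ord_ne_zero v h.ne'
    rw [v.ord_mul hne (inv_ne_zero ht0), v.ord_inv, ht]
    omega

theorem WDiff.vanishAt_iff (lam : WDiff K F) {v : Place K F} {t : F} (ht : v.ord t = 1) :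
    lam.VanishAt v ↔ lam.loc v t⁻¹ = 0 := by
  constructor
  · intro h
    apply h
    rw [v.ord_inv, ht]
  · intro h f hf
    rw [lam.loc_simple_pole ht hf, h, mul_zero]

end

end Fermat.Agent.S27
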