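import Fermat.Agent.S27.Ev
import Fermat.Agent.S27.Approx
import Fermat.Agent.S27.FibBasic
import Fermat.Agent.S27.WLoc

/-! # S27 / C0: API derived from the structure `Chart` (Defs.lean)

Sketches.
* `isVal_t`: `ord (t - τ) = 1 > 0`.  `pl_injOn`: `ev (pl τ) t = τ`.
* `eventually_ord_nonneg`: `f` has finitely many poles (`finite_ord_ne_zero`), `pl` is injective on the
  ball, so only finitely many parameters `σ` give poles; `τ` is not one of them.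
* `hasDerivAt_ev`: `f - f(τ) = (t - τ) m` with `m` regular at `pl τ`; for `σ` near `τ`,
  `ev (pl σ) f - f(τ) = (σ - τ) ev (pl σ) m` and `σ ↦ ev (pl σ) m` is continuous at `τ`.
* `exists_eq_pow_mul`: `f = (t - τ)^n m`, `m` a unit at `pl τ`.
* `eventually_ne`: separate the two places by a function (`exists_isVal`), use continuity.
* `prim`: `H lam` is holomorphic on the ball, so has a primitive
  (`DifferentiableOn.isExactOn_ball`, Mathlib/Analysis/Complex/HasPrimitives.lean).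
-/

set_option autoImplicit false

noncomputable section

namespace Fermat.Agent.S27

open AlgebraicCurve Fermat.Agent.S24.FF Topology

namespace Chart

variable {F : Type*} [Field F] [Algebra ℂ F]

/-- restriction of a chart to a smaller ball -/
def restrict (χ : Chart F) (c' : ℂ) (r' : ℝ) (hr' : 0 < r')
    (h : Metric.ball c' r' ⊆ Metric.ball χ.c χ.r) : Chart F where
  t := χ.t
  c := c'
  r := r'
  r_pos := hr'
  pl := χ.pl
  ord_t := fun τ hτ => χ.ord_t τ (h hτ)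
  analytic_ev := fun f τ hτ => χ.analytic_ev f τ (h hτ)
  analytic_loc := fun lam τ hτ => χ.analytic_loc lam τ (h hτ)

variable (χ : Chart F)

theorem c_mem_dom : χ.c ∈ χ.dom := Metric.mem_ball_self χ.r_pos

theorem isOpen_dom : IsOpen χ.dom := Metric.isOpen_ball

theorem isVal_t {τ : ℂ} (hτ : τ ∈ χ.dom) : IsVal (χ.pl τ) χ.t τ :=
  Or.inr (by rw [χ.ord_t τ hτ]; exact one_pos)

variable [IsFF1 ℂ F]

theorem ev_t {τ : ℂ} (hτ : τ ∈ χ.dom) : ev (χ.pl τ) χ.t = τ := by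
  exact ev_eq_of_isVal (χ.isVal_t hτ)

theorem pl_injOn : Set.InjOn χ.pl χ.dom := by
  intro τ hτ σ hσ h
  rw [← χ.ev_t hτ, ← χ.ev_t hσ, h]

/-- only finitely many parameters give a zero or a pole of `f` -/
theorem finite_ord_ne_zero_dom (f : F) : {σ ∈ χ.dom | (χ.pl σ).ord f ≠ 0}.Finite := by
  apply Set.Finite.of_finite_image (f := χ.pl)
  · refine (finite_ord_ne_zero (K := ℂ) f).subset ?_
    rintro _ ⟨σ, hσ, rfl⟩
    exact hσ.2
  · exact χ.pl_injOn.mono fun σ hσ => hσ.1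

omit [IsFF1 ℂ F] in
/-- `t - τ` is regular with value `σ - τ` at `pl σ` -/
theorem isVal_t_sub {σ : ℂ} (hσ : σ ∈ χ.dom) (τ : ℂ) :
    IsVal (χ.pl σ) (χ.t - algebraMap ℂ F τ) (σ - τ) :=
  (χ.isVal_t hσ).sub (isVal_algebraMap _ τ)

omit [IsFF1 ℂ F] in
theorem t_sub_ne_zero {τ : ℂ} (hτ : τ ∈ χ.dom) : χ.t - algebraMap ℂ F τ ≠ 0 :=
  ne_zero_of_ord_ne_zero (χ.pl τ) (by rw [χ.ord_t τ hτ]; exact one_ne_zero)

theorem eventually_ord_nonneg {f : F} {τ : ℂ} (hτ : τ ∈ χ.dom) (hf : 0 ≤ (χ.pl τ).ord f) :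
    ∀ᶠ σ in 𝓝 τ, 0 ≤ (χ.pl σ).ord f := by
  have hfin : {σ ∈ χ.dom | (χ.pl σ).ord f < 0}.Finite :=
    (χ.finite_ord_ne_zero_dom f).subset fun σ hσ => ⟨hσ.1, hσ.2.ne⟩
  have h1 : ∀ᶠ σ in 𝓝 τ, σ ∈ {σ ∈ χ.dom | (χ.pl σ).ord f < 0}ᶜ :=
    hfin.isClosed.isOpen_compl.mem_nhds fun h => absurd hf (not_le.2 h.2)
  filter_upwards [h1, χ.isOpen_dom.mem_nhds hτ] with σ h2 h3
  by_contra h4
  exact h2 ⟨h3, not_le.1 h4⟩

theorem eventually_ord_eq_zero (f : F) {τ : ℂ} (hτ : τ ∈ χ.dom) :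
    ∀ᶠ σ in 𝓝[≠] τ, (χ.pl σ).ord f = 0 := by
  have hfin : ({σ ∈ χ.dom | (χ.pl σ).ord f ≠ 0} \ {τ}).Finite :=
    (χ.finite_ord_ne_zero_dom f).subset Set.sdiff_subset
  have h1 : ∀ᶠ σ in 𝓝 τ, σ ∈ ({σ ∈ χ.dom | (χ.pl σ).ord f ≠ 0} \ {τ})ᶜ :=
    hfin.isClosed.isOpen_compl.mem_nhds fun h => h.2 rfl
  rw [eventually_nhdsWithin_iff]
  filter_upwards [h1, χ.isOpen_dom.mem_nhds hτ] with σ h2 h3 h4
  by_contra h5
  exact h2 ⟨⟨h3, h5⟩, h4⟩

theorem continuousAt_ev {f : F} {τ : ℂ} (hτ : τ ∈ χ.dom) (hf : 0 ≤ (χ.pl τ).ord f) :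
    ContinuousAt (fun σ => ev (χ.pl σ) f) τ :=
  (χ.analytic_ev f τ hτ hf).continuousAt

/-- the analytic derivative is the algebraic one -/
theorem hasDerivAt_ev {f : F} {τ : ℂ} (hτ : τ ∈ χ.dom) (hf : 0 ≤ (χ.pl τ).ord f) :
    HasDerivAt (fun σ => ev (χ.pl σ) f)
      (ev (χ.pl τ) ((f - algebraMap ℂ F (ev (χ.pl τ) f)) * (χ.t - algebraMap ℂ F τ)⁻¹)) τ := by
  set a : ℂ := ev (χ.pl τ) f with ha
  set u : F := χ.t - algebraMap ℂ F τ with hu
  set m : F := (f - algebraMap ℂ F a) * u⁻¹ with hm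
  have hu0 : u ≠ 0 := χ.t_sub_ne_zero hτ
  have hmord : 0 ≤ (χ.pl τ).ord m := by
    have hval : IsVal (χ.pl τ) f a := isVal_ev hf
    rcases hval with h | h
    · rw [hm, ← h, sub_self, zero_mul, (χ.pl τ).ord_zero]
    · have hne : f - algebraMap ℂ F a ≠ 0 := ne_zero_of_ord_ne_zero _ h.ne'
      rw [hm, (χ.pl τ).ord_mul hne (inv_ne_zero hu0), (χ.pl τ).ord_inv, hu, χ.ord_t τ hτ]
      omega
  have hfm : f = algebraMap ℂ F a + u * m := by
    rw [hm]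
    field_simp
    ring
  have hM := (χ.analytic_ev m τ hτ hmord).differentiableAt.hasDerivAt
  have h1 := (((hasDerivAt_id τ).sub_const τ).mul hM).const_add a
  simp only [id_eq, one_mul, sub_self, zero_mul, add_zero] at h1
  refine h1.congr_of_eventuallyEq ?_
  filter_upwards [χ.eventually_ord_nonneg hτ hmord, χ.isOpen_dom.mem_nhds hτ] with σ h2 h3
  have h4 : IsVal (χ.pl σ) (algebraMap ℂ F a + u * m) (a + (σ - τ) * ev (χ.pl σ) m) :=
    (isVal_algebraMap _ a).add ((χ.isVal_t_sub h3 τ).mul (isVal_ev h2))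
  rw [← hfm] at h4
  exact ev_eq_of_isVal h4

/-- the order of vanishing of `σ ↦ f(pl σ)` at `τ` is `ord_{pl τ} f` -/
theorem exists_eq_pow_mul {f : F} (hf0 : f ≠ 0) {τ : ℂ} (hτ : τ ∈ χ.dom) {n : ℕ}
    (hf : (χ.pl τ).ord f = n) :
    ∃ h : ℂ → ℂ, AnalyticAt ℂ h τ ∧ h τ ≠ 0 ∧
      ∀ᶠ σ in 𝓝 τ, ev (χ.pl σ) f = (σ - τ) ^ n * h σ := by
  set u : F := χ.t - algebraMap ℂ F τ with hu
  have hu0 : u ≠ 0 := χ.t_sub_ne_zero hτ
  set m : F := f * (u ^ n)⁻¹ with hm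
  have hun0 : u ^ n ≠ 0 := pow_ne_zero _ hu0
  have hm0 : m ≠ 0 := mul_ne_zero hf0 (inv_ne_zero hun0)
  have hmord : (χ.pl τ).ord m = 0 := by
    rw [hm, (χ.pl τ).ord_mul hf0 (inv_ne_zero hun0), (χ.pl τ).ord_inv, ord_pow, hu,
      χ.ord_t τ hτ, hf]
    ring
  have hfm : f = u ^ n * m := by
    rw [hm]
    field_simp
  refine ⟨fun σ => ev (χ.pl σ) m, χ.analytic_ev m τ hτ hmord.ge,
    ev_ne_zero_of_ord_eq_zero hm0 hmord, ?_⟩
  filter_upwards [χ.eventually_ord_nonneg hτ hmord.ge, χ.isOpen_dom.mem_nhds hτ] with σ h2 h3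
  have h4 : IsVal (χ.pl σ) (u ^ n * m) ((σ - τ) ^ n * ev (χ.pl σ) m) :=
    ((χ.isVal_t_sub h3 τ).pow n).mul (isVal_ev h2)
  rw [← hfm] at h4
  exact ev_eq_of_isVal h4

/-- distinct places have disjoint chart neighbourhoods -/
theorem eventually_ne (χ' : Chart F) {s s' : ℂ} (hs : s ∈ χ.dom) (hs' : s' ∈ χ'.dom)
    (hne : χ.pl s ≠ χ'.pl s') :
    ∃ δ > 0, ∀ σ ∈ Metric.ball s δ, ∀ σ' ∈ Metric.ball s' δ, χ.pl σ ≠ χ'.pl σ' := by
  classical
  obtain ⟨f, hf⟩ := exists_isVal ({χ.pl s, χ'.pl s'} : Finset (Place ℂ F))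
    (fun v => if v = χ.pl s then 0 else 1)
  have h0 : IsVal (χ.pl s) f 0 := by
    simpa using hf (χ.pl s) (by simp)
  have h1 : IsVal (χ'.pl s') f 1 := by
    simpa [hne.symm] using hf (χ'.pl s') (by simp)
  have c0 := χ.continuousAt_ev hs h0.ord_nonneg
  have c1 := χ'.continuousAt_ev hs' h1.ord_nonneg
  rw [Metric.continuousAt_iff] at c0 c1
  obtain ⟨δ₀, hδ₀, H0⟩ := c0 (1 / 2) (by norm_num)
  obtain ⟨δ₁, hδ₁, H1⟩ := c1 (1 / 2) (by norm_num)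
  refine ⟨min δ₀ δ₁, lt_min hδ₀ hδ₁, fun σ hσ σ' hσ' heq => ?_⟩
  have e0 := H0 (lt_of_lt_of_le (Metric.mem_ball.1 hσ) (min_le_left _ _))
  have e1 := H1 (lt_of_lt_of_le (Metric.mem_ball.1 hσ') (min_le_right _ _))
  rw [ev_eq_of_isVal h0] at e0
  rw [ev_eq_of_isVal h1, ← heq] at e1
  have h2 : dist (0 : ℂ) 1 < 1 / 2 + 1 / 2 :=
    lt_of_le_of_lt (dist_triangle_left _ _ _) (add_lt_add e0 e1)
  norm_num at h2

/-- a place different from `pl s` is avoided near `s` -/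
theorem eventually_ne_place {s : ℂ} (hs : s ∈ χ.dom) (w : Place ℂ F) (hne : χ.pl s ≠ w) :
    ∃ δ > 0, ∀ σ ∈ Metric.ball s δ, χ.pl σ ≠ w := by
  classical
  obtain ⟨f, hf⟩ := exists_isVal ({χ.pl s, w} : Finset (Place ℂ F))
    (fun v => if v = χ.pl s then 0 else 1)
  have h0 : IsVal (χ.pl s) f 0 := by
    simpa using hf (χ.pl s) (by simp)
  have h1 : IsVal w f 1 := by
    simpa [hne.symm] using hf w (by simp)
  have c0 := χ.continuousAt_ev hs h0.ord_nonneg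
  rw [Metric.continuousAt_iff] at c0
  obtain ⟨δ₀, hδ₀, H0⟩ := c0 (1 / 2) (by norm_num)
  refine ⟨δ₀, hδ₀, fun σ hσ heq => ?_⟩
  have e0 := H0 (Metric.mem_ball.1 hσ)
  rw [ev_eq_of_isVal h0, heq, ev_eq_of_isVal h1] at e0
  norm_num at e0

omit [IsFF1 ℂ F] in
theorem analyticAt_H (lam : WDiff ℂ F) {τ : ℂ} (hτ : τ ∈ χ.dom) : AnalyticAt ℂ (χ.H lam) τ :=
  χ.analytic_loc lam τ hτ

omit [IsFF1 ℂ F] in
theorem exists_prim (lam : WDiff ℂ F) :
    ∃ P : ℂ → ℂ, P χ.c = 0 ∧ ∀ τ ∈ χ.dom, HasDerivAt P (χ.H lam τ) τ := by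
  have hd : DifferentiableOn ℂ (χ.H lam) (Metric.ball χ.c χ.r) := fun τ hτ =>
    (χ.analyticAt_H lam hτ).differentiableAt.differentiableWithinAt
  exact hd.isExactOn_ball.with_val_at χ.c 0

/-- the primitive of `lam / dt` on the chart which vanishes at the centre -/
def prim (lam : WDiff ℂ F) : ℂ → ℂ := (χ.exists_prim lam).choose

omit [IsFF1 ℂ F] in
theorem prim_c (lam : WDiff ℂ F) : χ.prim lam χ.c = 0 := (χ.exists_prim lam).choose_spec.1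

omit [IsFF1 ℂ F] in
theorem hasDerivAt_prim (lam : WDiff ℂ F) {τ : ℂ} (hτ : τ ∈ χ.dom) :
    HasDerivAt (χ.prim lam) (χ.H lam τ) τ := (χ.exists_prim lam).choose_spec.2 τ hτ

omit [IsFF1 ℂ F] in
/-- differences of primitives do not change under restriction -/
theorem prim_restrict_sub (lam : WDiff ℂ F) (c' : ℂ) (r' : ℝ) (hr' : 0 < r')
    (h : Metric.ball c' r' ⊆ Metric.ball χ.c χ.r) {s s' : ℂ} (hs : s ∈ Metric.ball c' r')
    (hs' : s' ∈ Metric.ball c' r') :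
    (χ.restrict c' r' hr' h).prim lam s - (χ.restrict c' r' hr' h).prim lam s'
      = χ.prim lam s - χ.prim lam s' := by
  set P₁ := (χ.restrict c' r' hr' h).prim lam with hP₁
  set P₂ := χ.prim lam with hP₂
  have d₁ : ∀ τ ∈ Metric.ball c' r', HasDerivAt P₁ (χ.H lam τ) τ := fun τ hτ =>
    (χ.restrict c' r' hr' h).hasDerivAt_prim lam hτ
  have d₂ : ∀ τ ∈ Metric.ball c' r', HasDerivAt P₂ (χ.H lam τ) τ := fun τ hτ =>
    χ.hasDerivAt_prim lam (h hτ)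
  have d : ∀ τ ∈ Metric.ball c' r', HasDerivAt (fun z => P₁ z - P₂ z) 0 τ := fun τ hτ => by
    have := (d₁ τ hτ).fun_sub (d₂ τ hτ)
    rwa [sub_self] at this
  have key := Metric.isOpen_ball.is_const_of_deriv_eq_zero
    (convex_ball c' r').isPreconnected
    (fun τ hτ => (d τ hτ).differentiableAt.differentiableWithinAt)
    (fun τ hτ => (d τ hτ).deriv) hs hs'
  linear_combination key

/-- `lam` vanishes at `pl τ` iff `H lam τ = 0` -/
theorem vanishAt_iff (lam : WDiff ℂ F) {τ : ℂ} (hτ : τ ∈ χ.dom) :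
    lam.VanishAt (χ.pl τ) ↔ χ.H lam τ = 0 := by
  exact WDiff.vanishAt_iff lam (χ.ord_t τ hτ)

end Chart

end Fermat.Agent.S27
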