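import Fermat.Agent.S27.Ev

/-! # S27 / A3: a place centred at a smooth point of a plane model

`x y : F` generate `F` over `K`, `P(x,y) = 0`, the place `w` has `(x,y)(w) = (a,b)` and
`∂P/∂Y (a,b) ≠ 0`.  Then `x - a` is a uniformizer at `w`, the local ring of `w` consists of the
fractions `A(x,y)/B(x,y)` with `B(a,b) ≠ 0`, and `w` is the only place centred at `(a,b)`.

Proof sketch.  Let `R = {A(x,y)/B(x,y) : B(a,b) ≠ 0} ⊆ O_w`, `m = {A(a,b) = 0}`.
Taylor expansion of `P` at `(a,b)` gives `(y-b) * unit = (x-a) * r`, so `m = (x-a) R`.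
Every nonzero `r ∈ R` is `(x-a)^n * unit` (the exponent is bounded by `ord_w r`), hence so is every
nonzero element of `F` (with `n ∈ ℤ`); everything follows.
-/

set_option autoImplicit false

noncomputable section

namespace Fermat.Agent.S27

open AlgebraicCurve Fermat.Agent.S24.FF Polynomial
open scoped Polynomial.Bivariate

variable {K F : Type*} [Field K] [Field F] [Algebra K F]

/-- `x, y` generate the field `F` over `K`. -/
def Gen2 (K : Type*) {F : Type*} [Field K] [Field F] [Algebra K F] (x y : F) : Prop :=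
  ∀ f : F, ∃ A B : K[X][Y], aevalAeval x y B ≠ 0 ∧ f * aevalAeval x y B = aevalAeval x y A

/-- value of a polynomial expression -/
theorem IsVal.aevalAeval {v : Place K F} {x y : F} {a b : K} (hx : IsVal v x a) (hy : IsVal v y b)
    (A : K[X][Y]) : IsVal v (aevalAeval x y A) (evalEval a b A) := by
  induction A using Polynomial.induction_on' with
  | add p q hp hq =>
    rw [map_add, evalEval_add]
    exact hp.add hq
  | monomial n c =>
    rw [← C_mul_X_pow_eq_monomial, map_mul, map_pow, evalEval_mul, evalEval_pow, aevalAeval_C,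
      aevalAeval_Y, evalEval_C, evalEval_X]
    exact (hx.aeval c).mul (hy.pow n)

namespace SmoothPoint

/-- A function with a nonzero value at `v` is a unit at `v`. -/
theorem ne_zero_and_ord_eq_zero {v : Place K F} {f : F} {c : K} (h : IsVal v f c) (hc : c ≠ 0) :
    f ≠ 0 ∧ v.ord f = 0 := by
  have hc' : algebraMap K F c ≠ 0 := by
    simpa using hc
  rcases h with h | h
  · rw [h]
    exact ⟨hc', ord_algebraMap v c⟩
  · have h2 := ord_add_eq_of_lt v (f := algebraMap K F c) (g := f - algebraMap K F c) hc'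
      (by rw [ord_algebraMap]; exact h)
    rw [add_sub_cancel, ord_algebraMap] at h2
    refine ⟨?_, h2⟩
    rintro rfl
    rw [zero_sub, ord_neg, ord_algebraMap] at h
    exact lt_irrefl _ h

/-- Taylor decomposition of a bivariate polynomial at `(a,b)`. -/
theorem exists_taylor (a b : K) (A : K[X][Y]) :
    ∃ A₁ A₂ : K[X][Y], A = C (C (evalEval a b A)) + C (X - C a) * A₁ + (X - C (C b)) * A₂ ∧
      evalEval a b A₂ = evalEval a b (derivative A) := by
  set r : K[X] := A.eval (C b) with hr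
  have h1 : A = C r + (X - C (C b)) * (A /ₘ (X - C (C b))) := by
    have := modByMonic_add_div A (X - C (C b))
    rw [modByMonic_X_sub_C_eq_C_eval] at this
    exact this.symm
  have h2 : r = C (r.eval a) + (X - C a) * (r /ₘ (X - C a)) := by
    have := modByMonic_add_div r (X - C a)
    rw [modByMonic_X_sub_C_eq_C_eval] at this
    exact this.symm
  refine ⟨C (r /ₘ (X - C a)), A /ₘ (X - C (C b)), ?_, ?_⟩
  · conv_lhs => rw [h1]
    congr 1
    conv_lhs => rw [h2]
    rw [C_add, C_mul]
  · conv_rhs => rw [h1]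
    simp [derivative_mul, evalEval_add, evalEval_mul, evalEval_sub]

variable {x y : F} {P : K[X][Y]} {w : Place K F} {a b : K}

/-- the value of `P` at the centre vanishes -/
theorem evalEval_eq_zero (hP : aevalAeval x y P = 0) (hx : IsVal w x a) (hy : IsVal w y b) :
    evalEval a b P = 0 := by
  have h := IsVal.aevalAeval hx hy P
  rw [hP] at h
  have h0 : IsVal w (0 : F) (0 : K) := Or.inl (by simp)
  exact h.unique h0

/-- Key step: a polynomial expression vanishing at the centre is divisible by `x - a`. -/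
theorem exists_factor (hP : aevalAeval x y P = 0) (hx : IsVal w x a) (hy : IsVal w y b)
    (hsm : evalEval a b (derivative P) ≠ 0) (A : K[X][Y]) (hA : evalEval a b A = 0) :
    ∃ U C' : K[X][Y], evalEval a b U ≠ 0 ∧
      aevalAeval x y A * aevalAeval x y U = (x - algebraMap K F a) * aevalAeval x y C' := by
  obtain ⟨P₁, P₂, hPeq, hP₂⟩ := exists_taylor a b P
  obtain ⟨A₁, A₂, hAeq, -⟩ := exists_taylor a b A
  rw [evalEval_eq_zero hP hx hy] at hPeq
  rw [hA] at hAeq
  refine ⟨P₂, A₁ * P₂ - P₁ * A₂, by rw [hP₂]; exact hsm, ?_⟩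
  have e1 : aevalAeval x y P = (x - algebraMap K F a) * aevalAeval x y P₁
      + (y - algebraMap K F b) * aevalAeval x y P₂ := by
    conv_lhs => rw [hPeq]
    simp
  have e2 : aevalAeval x y A = (x - algebraMap K F a) * aevalAeval x y A₁
      + (y - algebraMap K F b) * aevalAeval x y A₂ := by
    conv_lhs => rw [hAeq]
    simp
  rw [hP] at e1
  rw [e2, map_sub, map_mul, map_mul]
  linear_combination (-(aevalAeval x y A₂)) * e1

/-- Every nonzero polynomial expression is `(x-a)^n` times a unit of the local ring of fractions. -/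
theorem exists_pow_mul (hP : aevalAeval x y P = 0) (hx : IsVal w x a) (hy : IsVal w y b)
    (hsm : evalEval a b (derivative P) ≠ 0) :
    ∀ (N : ℕ) (A : K[X][Y]), aevalAeval x y A ≠ 0 → w.ord (aevalAeval x y A) ≤ N →
    ∃ (n : ℕ) (U V : K[X][Y]), evalEval a b U ≠ 0 ∧ evalEval a b V ≠ 0 ∧
      aevalAeval x y A * aevalAeval x y U = (x - algebraMap K F a) ^ n * aevalAeval x y V := by
  intro N
  induction N with
  | zero =>
    intro A hA0 hord
    refine ⟨0, 1, A, by simp, ?_, by simp⟩
    intro hA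
    have h := IsVal.aevalAeval hx hy A
    rw [hA, isVal_zero_iff] at h
    rcases h with h | h
    · exact hA0 h
    · have hord' : w.ord (aevalAeval x y A) ≤ 0 := by exact_mod_cast hord
      omega
  | succ N ih =>
    intro A hA0 hord
    by_cases hA : evalEval a b A = 0
    · obtain ⟨U, C', hU, hfac⟩ := exists_factor hP hx hy hsm A hA
      obtain ⟨hU0, hUord⟩ := ne_zero_and_ord_eq_zero (IsVal.aevalAeval hx hy U) hU
      have hprod : aevalAeval x y A * aevalAeval x y U ≠ 0 := mul_ne_zero hA0 hU0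
      rw [hfac] at hprod
      have ht0 : x - algebraMap K F a ≠ 0 := left_ne_zero_of_mul hprod
      have hC0 : aevalAeval x y C' ≠ 0 := right_ne_zero_of_mul hprod
      have htpos : 0 < w.ord (x - algebraMap K F a) := by
        rcases hx with hx | hx
        · exact absurd (sub_eq_zero.mpr hx) ht0
        · exact hx
      have hordeq := congrArg w.ord hfac
      rw [w.ord_mul hA0 hU0, w.ord_mul ht0 hC0, hUord] at hordeq
      obtain ⟨n, U', V, hU', hV, h⟩ := ih C' hC0 (by push_cast at hord; omega)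
      refine ⟨n + 1, U * U', V, by rw [evalEval_mul]; exact mul_ne_zero hU hU', hV, ?_⟩
      rw [map_mul, ← mul_assoc, hfac, mul_assoc, h, pow_succ]
      ring
    · exact ⟨0, 1, A, by simp, hA, by simp⟩

/-- Structure of nonzero elements of `F`. -/
theorem exists_zpow_mul (hgen : Gen2 K x y) (hP : aevalAeval x y P = 0) (hx : IsVal w x a)
    (hy : IsVal w y b) (hsm : evalEval a b (derivative P) ≠ 0) (f : F) (hf : f ≠ 0) :
    ∃ (n m : ℕ) (U V : K[X][Y]), evalEval a b U ≠ 0 ∧ evalEval a b V ≠ 0 ∧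
      f * (x - algebraMap K F a) ^ m * aevalAeval x y U
        = (x - algebraMap K F a) ^ n * aevalAeval x y V := by
  obtain ⟨A, B, hB0, hfB⟩ := hgen f
  have hA0 : aevalAeval x y A ≠ 0 := by
    rw [← hfB]; exact mul_ne_zero hf hB0
  obtain ⟨n, U₁, V₁, hU₁, hV₁, h₁⟩ := exists_pow_mul hP hx hy hsm
    (w.ord (aevalAeval x y A)).toNat A hA0 (Int.self_le_toNat _)
  obtain ⟨m, U₂, V₂, hU₂, hV₂, h₂⟩ := exists_pow_mul hP hx hy hsm
    (w.ord (aevalAeval x y B)).toNat B hB0 (Int.self_le_toNat _)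
  refine ⟨n, m, V₂ * U₁, V₁ * U₂, by rw [evalEval_mul]; exact mul_ne_zero hV₂ hU₁,
    by rw [evalEval_mul]; exact mul_ne_zero hV₁ hU₂, ?_⟩
  rw [map_mul, map_mul]
  calc f * (x - algebraMap K F a) ^ m * (aevalAeval x y V₂ * aevalAeval x y U₁)
      = f * ((x - algebraMap K F a) ^ m * aevalAeval x y V₂) * aevalAeval x y U₁ := by ring
    _ = f * (aevalAeval x y B * aevalAeval x y U₂) * aevalAeval x y U₁ := by rw [h₂]
    _ = (f * aevalAeval x y B) * aevalAeval x y U₁ * aevalAeval x y U₂ := by ring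
    _ = (aevalAeval x y A * aevalAeval x y U₁) * aevalAeval x y U₂ := by rw [hfB]
    _ = (x - algebraMap K F a) ^ n * (aevalAeval x y V₁ * aevalAeval x y U₂) := by
        rw [h₁]; ring

/-- `x - a` is nonzero with positive order. -/
theorem ord_pos (hgen : Gen2 K x y) (hP : aevalAeval x y P = 0) (hx : IsVal w x a)
    (hy : IsVal w y b) (hsm : evalEval a b (derivative P) ≠ 0) :
    x - algebraMap K F a ≠ 0 ∧ 0 < w.ord (x - algebraMap K F a) := by
  have key : x - algebraMap K F a ≠ 0 := by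
    intro ht
    obtain ⟨π, hπ⟩ := exists_ord_eq_one w
    have hπ0 : π ≠ 0 := ne_zero_of_ord_ne_zero w (by rw [hπ]; exact one_ne_zero)
    obtain ⟨n, m, U, V, hU, hV, h⟩ := exists_zpow_mul hgen hP hx hy hsm π hπ0
    obtain ⟨hU0, hUord⟩ := ne_zero_and_ord_eq_zero (IsVal.aevalAeval hx hy U) hU
    obtain ⟨hV0, hVord⟩ := ne_zero_and_ord_eq_zero (IsVal.aevalAeval hx hy V) hV
    rw [ht] at h
    rcases Nat.eq_zero_or_pos m with rfl | hm
    · rcases Nat.eq_zero_or_pos n with rfl | hn
      · simp only [pow_zero, mul_one, one_mul] at h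
        have := congrArg w.ord h
        rw [w.ord_mul hπ0 hU0, hπ, hUord, hVord] at this
        omega
      · rw [zero_pow hn.ne', zero_mul, pow_zero, mul_one] at h
        exact mul_ne_zero hπ0 hU0 h
    · rcases Nat.eq_zero_or_pos n with rfl | hn
      · rw [zero_pow hm.ne', mul_zero, zero_mul, pow_zero, one_mul] at h
        exact hV0 h.symm
      · -- both sides vanish: use the finer statement for numerator and denominator
        obtain ⟨A, B, hB0, hfB⟩ := hgen π
        have hA0 : aevalAeval x y A ≠ 0 := by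
          rw [← hfB]; exact mul_ne_zero hπ0 hB0
        obtain ⟨n', U₁, V₁, hU₁, hV₁, h₁⟩ := exists_pow_mul hP hx hy hsm
          (w.ord (aevalAeval x y A)).toNat A hA0 (Int.self_le_toNat _)
        obtain ⟨m', U₂, V₂, hU₂, hV₂, h₂⟩ := exists_pow_mul hP hx hy hsm
          (w.ord (aevalAeval x y B)).toNat B hB0 (Int.self_le_toNat _)
        obtain ⟨hU₁0, hU₁ord⟩ := ne_zero_and_ord_eq_zero (IsVal.aevalAeval hx hy U₁) hU₁
        obtain ⟨hV₁0, hV₁ord⟩ := ne_zero_and_ord_eq_zero (IsVal.aevalAeval hx hy V₁) hV₁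
        obtain ⟨hU₂0, hU₂ord⟩ := ne_zero_and_ord_eq_zero (IsVal.aevalAeval hx hy U₂) hU₂
        obtain ⟨hV₂0, hV₂ord⟩ := ne_zero_and_ord_eq_zero (IsVal.aevalAeval hx hy V₂) hV₂
        rw [ht] at h₁ h₂
        have hn' : n' = 0 := by
          by_contra hne
          rw [zero_pow hne, zero_mul] at h₁
          exact mul_ne_zero hA0 hU₁0 h₁
        have hm' : m' = 0 := by
          by_contra hne
          rw [zero_pow hne, zero_mul] at h₂
          exact mul_ne_zero hB0 hU₂0 h₂
        subst hn' hm'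
        rw [pow_zero, one_mul] at h₁ h₂
        have o1 := congrArg w.ord h₁
        have o2 := congrArg w.ord h₂
        have o3 := congrArg w.ord hfB
        rw [w.ord_mul hA0 hU₁0, hU₁ord, hV₁ord] at o1
        rw [w.ord_mul hB0 hU₂0, hU₂ord, hV₂ord] at o2
        rw [w.ord_mul hπ0 hB0, hπ] at o3
        omega
  refine ⟨key, ?_⟩
  rcases hx with hx | hx
  · exact absurd (sub_eq_zero.mpr hx) key
  · exact hx

end SmoothPoint

open SmoothPoint

variable [IsAlgClosed K] [CharZero K] [IsFF1 K F]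

theorem smoothPoint_local_ring {x y : F} (hgen : Gen2 K x y) {P : K[X][Y]}
    (hP : aevalAeval x y P = 0) {w : Place K F} {a b : K} (hx : IsVal w x a) (hy : IsVal w y b)
    (hsm : evalEval a b (derivative P) ≠ 0) (f : F) (hf : 0 ≤ w.ord f) :
    ∃ A B : K[X][Y], evalEval a b B ≠ 0 ∧ f * aevalAeval x y B = aevalAeval x y A := by
  rcases eq_or_ne f 0 with rfl | hf0
  · exact ⟨0, 1, by simp, by simp⟩
  obtain ⟨ht0, htpos⟩ := ord_pos hgen hP hx hy hsm
  obtain ⟨n, m, U, V, hU, hV, h⟩ := exists_zpow_mul hgen hP hx hy hsm f hf0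
  obtain ⟨hU0, hUord⟩ := ne_zero_and_ord_eq_zero (IsVal.aevalAeval hx hy U) hU
  obtain ⟨hV0, hVord⟩ := ne_zero_and_ord_eq_zero (IsVal.aevalAeval hx hy V) hV
  have ho := congrArg w.ord h
  rw [w.ord_mul (mul_ne_zero hf0 (pow_ne_zero _ ht0)) hU0, w.ord_mul hf0 (pow_ne_zero _ ht0),
    w.ord_mul (pow_ne_zero _ ht0) hV0, ord_pow, ord_pow, hUord, hVord] at ho
  have hmn : m ≤ n := by
    by_contra hlt
    rw [not_le] at hlt
    have : (n : ℤ) * w.ord (x - algebraMap K F a) < m * w.ord (x - algebraMap K F a) :=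
      mul_lt_mul_of_pos_right (by exact_mod_cast hlt) htpos
    omega
  refine ⟨C (X - C a) ^ (n - m) * V, U, hU, ?_⟩
  have hpow : (x - algebraMap K F a) ^ n
      = (x - algebraMap K F a) ^ m * (x - algebraMap K F a) ^ (n - m) := by
    rw [← pow_add, Nat.add_sub_cancel' hmn]
  rw [hpow] at h
  have hcancel : (x - algebraMap K F a) ^ m * (f * aevalAeval x y U)
      = (x - algebraMap K F a) ^ m * ((x - algebraMap K F a) ^ (n - m) * aevalAeval x y V) := by
    linear_combination h
  have := mul_left_cancel₀ (pow_ne_zero m ht0) hcancel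
  rw [this, map_mul, map_pow, aevalAeval_C]
  simp

theorem smoothPoint_ord {x y : F} (hgen : Gen2 K x y) {P : K[X][Y]}
    (hP : aevalAeval x y P = 0) {w : Place K F} {a b : K} (hx : IsVal w x a) (hy : IsVal w y b)
    (hsm : evalEval a b (derivative P) ≠ 0) : w.ord (x - algebraMap K F a) = 1 := by
  obtain ⟨ht0, htpos⟩ := ord_pos hgen hP hx hy hsm
  obtain ⟨π, hπ⟩ := exists_ord_eq_one w
  have hπ0 : π ≠ 0 := ne_zero_of_ord_ne_zero w (by rw [hπ]; exact one_ne_zero)
  obtain ⟨n, m, U, V, hU, hV, h⟩ := exists_zpow_mul hgen hP hx hy hsm π hπ0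
  obtain ⟨hU0, hUord⟩ := ne_zero_and_ord_eq_zero (IsVal.aevalAeval hx hy U) hU
  obtain ⟨hV0, hVord⟩ := ne_zero_and_ord_eq_zero (IsVal.aevalAeval hx hy V) hV
  have ho := congrArg w.ord h
  rw [w.ord_mul (mul_ne_zero hπ0 (pow_ne_zero _ ht0)) hU0, w.ord_mul hπ0 (pow_ne_zero _ ht0),
    w.ord_mul (pow_ne_zero _ ht0) hV0, ord_pow, ord_pow, hUord, hVord, hπ] at ho
  have h1 : ((n : ℤ) - m) * w.ord (x - algebraMap K F a) = 1 := by
    linear_combination -ho
  have hdvd : w.ord (x - algebraMap K F a) ∣ 1 := ⟨(n : ℤ) - m, by rw [mul_comm]; exact h1.symm⟩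
  exact Int.eq_one_of_dvd_one htpos.le hdvd

theorem smoothPoint_unique {x y : F} (hgen : Gen2 K x y) {P : K[X][Y]}
    (hP : aevalAeval x y P = 0) {w w' : Place K F} {a b : K} (hx : IsVal w x a) (hy : IsVal w y b)
    (hx' : IsVal w' x a) (hy' : IsVal w' y b)
    (hsm : evalEval a b (derivative P) ≠ 0) : w = w' := by
  have main : ∀ {w w' : Place K F}, IsVal w x a → IsVal w y b → IsVal w' x a → IsVal w' y b →
      ∀ f : F, 0 ≤ w.ord f → 0 ≤ w'.ord f := by
    intro w w' hx hy hx' hy' f hf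
    rcases eq_or_ne f 0 with rfl | hf0
    · simp
    obtain ⟨A, B, hB, hfB⟩ := smoothPoint_local_ring hgen hP hx hy hsm f hf
    obtain ⟨hB0, hBord⟩ := ne_zero_and_ord_eq_zero (IsVal.aevalAeval hx' hy' B) hB
    have hA := (IsVal.aevalAeval hx' hy' A).ord_nonneg
    rw [← hfB, w'.ord_mul hf0 hB0, hBord] at hA
    omega
  exact place_ext_of_ord_nonneg fun f => ⟨main hx hy hx' hy' f, main hx' hy' hx hy f⟩

end Fermat.Agent.S27
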