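import Fermat.Agent.S27.WLoc
import Fermat.Agent.S27.RiemannI
import Fermat.Agent.S27.Cls
import Fermat.Agent.S27.FibBasic

/-! # S27 / W2: consequences of Riemann's theorem for Weil differentials and divisors

Notation: `g = genusFF K F`, `l(D) = finrank (riemannRochSpace D)`, `h1(D) = finrank (H1 D)`,
`l(D) - h1(D) = deg D + 1 - g` (RiemannI).

* `H1 D` for `D ≥ 0` is the quotient of `H1 0` by the image of `repartitionsOf D`; for
  `D = ∑ pt (v i)` (distinct) that image is spanned by the classes of `singleRep (v i) (t_i)⁻¹`.
  So a functional on `H1 D` is a `lam : WDiff` vanishing at all `v i`.  Hence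
  `NonSpecial v → Subsingleton (H1 D')` for every `D' ≥ ∑ pt (v i)`.
* a nonzero `lam` vanishes at finitely many places only: otherwise it kills the image of
  `repartitionsOf (∑_{i<n} pt (v i))` for all `n`, and `H1` of that is `0` for `n` large.
* `exists_nonSpecial`: choose the `v i` one at a time; the space of `lam` vanishing at the places
  already chosen drops by one at each step.
-/

set_option autoImplicit false
set_option linter.unusedSectionVars false

noncomputable section

namespace Fermat.Agent.S27

open AlgebraicCurve Fermat.Agent.S24.FF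

variable {K F : Type*} [Field K] [Field F] [Algebra K F] [IsAlgClosed K] [CharZero K] [IsFF1 K F]
  [NonConst K F]

instance finite_wdiff : Module.Finite K (WDiff K F) := by
  have := finite_H1 (0 : Divisor K F)
  infer_instance

theorem finrank_wdiff : Module.finrank K (WDiff K F) = genusFF K F := by
  have := finite_H1 (0 : Divisor K F)
  exact Subspace.dual_finrank_eq

omit [IsAlgClosed K] [CharZero K] [IsFF1 K F] [NonConst K F] in
/-- the single repartition `f` at `v` lies in `repartitionsOf D` as soon as `-D v ≤ ord_v f` -/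
theorem WRR.singleRep_mem_repartitionsOf {D : Divisor K F} {v : Place K F} {f : F}
    (h : -D v ≤ v.ord f) : singleRep v f ∈ repartitionsOf D := by
  classical
  rw [mem_repartitionsOf_iff]
  intro w
  by_cases hw : w = v
  · subst hw
    right
    simpa [singleRep] using h
  · left
    simp [singleRep, Pi.single_eq_of_ne hw]

/-- if `D ≥ 0` and every `lam` killing the local classes allowed by `D` is zero, then `H1 D = 0` -/
theorem subsingleton_H1_of_forall (D : Divisor K F) (hD : 0 ≤ D)
    (h : ∀ lam : WDiff K F, (∀ (v : Place K F) (f : F), -D v ≤ v.ord f → lam.loc v f = 0) → lam = 0) :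
    Subsingleton (H1 D) := by
  have hle : repartitionsOf (0 : Divisor K F) ⊔ principalRepartitions K F
      ≤ repartitionsOf D ⊔ principalRepartitions K F :=
    sup_le_sup_right (repartitionsOf_mono hD) _
  refine ⟨fun x y => ?_⟩
  rw [← sub_eq_zero, ← Module.forall_dual_apply_eq_zero_iff K]
  intro μ
  have hlam : μ.comp (Submodule.factor hle) = 0 := by
    apply h
    intro v f hf
    change μ (Submodule.Quotient.mk (singleRep v f)) = 0
    have : (Submodule.Quotient.mk (singleRep v f) : H1 D) = 0 := by
      rw [Submodule.Quotient.mk_eq_zero]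
      exact Submodule.mem_sup_left (WRR.singleRep_mem_repartitionsOf hf)
    rw [this, map_zero]
  obtain ⟨z, hz⟩ := Submodule.factor_surjective hle (x - y)
  rw [← hz]
  exact LinearMap.congr_fun hlam z

omit [IsAlgClosed K] [CharZero K] [IsFF1 K F] [NonConst K F] in
theorem WRR.sum_pt_apply (t : Finset (Place K F)) (w : Place K F) [Decidable (w ∈ t)] :
    (∑ v ∈ t, pt v) w = if w ∈ t then 1 else 0 := by
  classical
  rw [Finsupp.finsetSum_apply]
  simp only [pt, Finsupp.single_apply]
  rw [Finset.sum_ite_eq' t w]
  congr

omit [IsAlgClosed K] [CharZero K] [IsFF1 K F] [NonConst K F] in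
theorem WRR.pt_nonneg (v : Place K F) : 0 ≤ pt v := by
  classical
  intro w
  simp only [pt, Finsupp.coe_zero, Pi.zero_apply, Finsupp.single_apply]
  split_ifs <;> simp

theorem subsingleton_H1_of_nonSpecial {n : ℕ} {v : Fin n → Place K F} (hv : NonSpecial v)
    (D : Divisor K F) (hD : ∑ i, pt (v i) ≤ D) : Subsingleton (H1 D) := by
  classical
  have h0 : (0 : Divisor K F) ≤ ∑ i, pt (v i) := Finset.sum_nonneg fun i _ => WRR.pt_nonneg _
  apply subsingleton_H1_of_forall D (h0.trans hD)
  intro lam hlam
  apply hv.2
  intro i f hf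
  apply hlam
  have h1 : (1 : ℤ) ≤ (∑ j, pt (v j)) (v i) := by
    rw [Finsupp.finsetSum_apply]
    calc (1 : ℤ) = pt (v i) (v i) := by simp [pt]
      _ ≤ ∑ j, pt (v j) (v i) :=
        Finset.single_le_sum (f := fun j => pt (v j) (v i)) (fun j _ => WRR.pt_nonneg (v j) (v i))
          (Finset.mem_univ i)
  have h2 : (∑ j, pt (v j)) (v i) ≤ D (v i) := hD (v i)
  omega

theorem finite_vanishAt (lam : WDiff K F) (h : lam ≠ 0) :
    {v : Place K F | lam.VanishAt v}.Finite := by
  classical
  by_contra hinf
  apply h
  obtain ⟨c, hc⟩ := exists_forall_subsingleton_H1 (K := K) (F := F)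
  obtain ⟨t, ht, hcard⟩ := Set.Infinite.exists_subset_card_eq hinf c.toNat
  set D : Divisor K F := ∑ v ∈ t, pt v with hDdef
  have hdeg : Divisor.degree D = c.toNat := by
    rw [hDdef, map_sum, Finset.sum_congr rfl (fun v _ => degree_pt v)]
    simp [hcard]
  have hsub : Subsingleton (H1 D) := hc D (by rw [hdeg]; exact Int.self_le_toNat c)
  -- `lam` kills the image of `repartitionsOf D`
  have hkill : ∀ β : ↥(repartitions K F), β ∈ repartitionsOf D → lam (h1mk β) = 0 := by
    intro β hβ
    rw [mem_repartitionsOf_iff] at hβ
    have hs : ∀ w, w ∉ t → 0 ≤ w.ord ((β : Place K F → F) w) := by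
      intro w hw
      rcases hβ w with h0 | h1
      · rw [h0]; simp
      · rw [hDdef, WRR.sum_pt_apply, if_neg hw] at h1
        simpa using h1
    rw [h1mk_eq_sum β t hs, map_sum]
    apply Finset.sum_eq_zero
    intro w hw
    have hvan : lam.VanishAt w := ht hw
    apply hvan
    rcases hβ w with h0 | h1
    · rw [h0]; simp
    · rw [hDdef, WRR.sum_pt_apply, if_pos hw] at h1
      exact h1
  refine LinearMap.ext fun x => ?_
  obtain ⟨α, rfl⟩ := Submodule.Quotient.mk_surjective _ x
  have hα : α ∈ repartitionsOf D ⊔ principalRepartitions K F := by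
    rw [← Submodule.Quotient.mk_eq_zero]
    exact Subsingleton.elim _ _
  obtain ⟨β, hβ, π, hπ, rfl⟩ := Submodule.mem_sup.mp hα
  have hπ0 : (Submodule.Quotient.mk π : H1 (0 : Divisor K F)) = 0 := by
    rw [Submodule.Quotient.mk_eq_zero]
    exact Submodule.mem_sup_right hπ
  rw [Submodule.Quotient.mk_add, hπ0, add_zero]
  rw [LinearMap.zero_apply]
  exact hkill β hβ

omit [IsAlgClosed K] [CharZero K] [IsFF1 K F] [NonConst K F] in
/-- the space of regular Weil differentials vanishing at all places of `T` -/
def WRR.vanishSub (T : Set (Place K F)) : Submodule K (WDiff K F) where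
  carrier := {lam | ∀ v ∈ T, lam.VanishAt v}
  zero_mem' := by
    intro v _ f _
    show (0 : WDiff K F) _ = 0
    simp
  add_mem' := by
    intro a b ha hb v hv f hf
    rw [WDiff.add_loc, ha v hv f hf, hb v hv f hf, add_zero]
  smul_mem' := by
    intro c a ha v hv f hf
    rw [WDiff.smul_loc, ha v hv f hf, mul_zero]

theorem WRR.exists_finset_vanishSub (S : Finset (Place K F)) (k : ℕ) (hk : k ≤ genusFF K F) :
    ∃ t : Finset (Place K F), t.card = k ∧ Disjoint t S ∧
      Module.finrank K (WRR.vanishSub (t : Set (Place K F))) + k ≤ genusFF K F := by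
  classical
  induction k with
  | zero =>
    refine ⟨∅, rfl, Finset.disjoint_empty_left _, ?_⟩
    rw [add_zero, ← finrank_wdiff (K := K) (F := F)]
    exact Submodule.finrank_le _
  | succ k ih =>
    obtain ⟨t, htc, htS, hfr⟩ := ih (by omega)
    have := infinite_place (K := K) (F := F)
    by_cases hbot : WRR.vanishSub (t : Set (Place K F)) = ⊥
    · obtain ⟨w, hw⟩ := Infinite.exists_notMem_finset (t ∪ S)
      rw [Finset.mem_union, not_or] at hw
      refine ⟨insert w t, by rw [Finset.card_insert_of_notMem hw.1, htc], ?_, ?_⟩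
      · rw [Finset.disjoint_insert_left]
        exact ⟨hw.2, htS⟩
      · have hle : WRR.vanishSub ((insert w t : Finset (Place K F)) : Set (Place K F)) ≤ ⊥ := by
          rw [← hbot]
          intro lam hlam v hv
          exact hlam v (by simp [Finset.mem_coe.mp hv])
        rw [le_bot_iff] at hle
        rw [hle, finrank_bot]
        omega
    · obtain ⟨lam, hlam, hlam0⟩ := Submodule.exists_mem_ne_zero_of_ne_bot hbot
      have hfin := finite_vanishAt lam hlam0
      obtain ⟨w, hw⟩ := Infinite.exists_notMem_finset (t ∪ S ∪ hfin.toFinset)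
      simp only [Finset.mem_union, not_or, Set.Finite.mem_toFinset, Set.mem_ofPred_eq] at hw
      obtain ⟨⟨hwt, hwS⟩, hwl⟩ := hw
      refine ⟨insert w t, by rw [Finset.card_insert_of_notMem hwt, htc], ?_, ?_⟩
      · rw [Finset.disjoint_insert_left]
        exact ⟨hwS, htS⟩
      · have hlt : WRR.vanishSub ((insert w t : Finset (Place K F)) : Set (Place K F))
            < WRR.vanishSub (t : Set (Place K F)) := by
          refine lt_of_le_of_ne ?_ ?_
          · intro mu hmu v hv
            exact hmu v (by simp [Finset.mem_coe.mp hv])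
          · intro heq
            apply hwl
            have : lam ∈ WRR.vanishSub ((insert w t : Finset (Place K F)) : Set (Place K F)) := by
              rw [heq]; exact hlam
            exact this w (by simp)
        have := Submodule.finrank_lt_finrank_of_lt hlt
        omega

theorem exists_nonSpecial (S : Finset (Place K F)) :
    ∃ v : Fin (genusFF K F) → Place K F, NonSpecial v ∧ ∀ i, v i ∉ S := by
  classical
  obtain ⟨t, htc, htS, hfr⟩ := WRR.exists_finset_vanishSub S (genusFF K F) le_rfl
  have h0 : Module.finrank K (WRR.vanishSub (t : Set (Place K F))) = 0 := by omega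
  have hbot : WRR.vanishSub (t : Set (Place K F)) = ⊥ := Submodule.finrank_eq_zero.mp h0
  let e := (Finset.equivFinOfCardEq htc).symm
  refine ⟨fun i => (e i : Place K F), ⟨?_, ?_⟩, ?_⟩
  · intro i j hij
    exact e.injective (Subtype.ext hij)
  · intro lam hlam
    have : lam ∈ WRR.vanishSub (t : Set (Place K F)) := by
      intro v hv
      have := hlam (e.symm ⟨v, hv⟩)
      simpa using this
    rw [hbot] at this
    simpa using this
  · intro i hi
    exact (Finset.disjoint_left.mp htS) (e i).2 hi

end Fermat.Agent.S27
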